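import Mathlib
import Fermat.Agent.S37.HeckeInputs.Basic
import Fermat.Agent.S20.Psi

/-!
# S37 (E4'a, degree): `[F_{Mℓ} : α F_M] = ℓ + 1` for a prime `ℓ ∤ M`

`α = heckeAlphaBar` is the inclusion `F_M ⊂ F_{Mℓ}` over `K = ℚ̄`.  Tower
`K(J) ⊂ F_M ⊂ F_{Mℓ}` with `[F_M : K(J)] = ψ(M)`, `[F_{Mℓ} : K(J)] = ψ(Mℓ) = (ℓ+1) ψ(M)`
(S24 `FiniteFibres.T0`, S20 `dedekindPsi_mul_prime_of_not_dvd`).
-/

set_option autoImplicit false

namespace Fermat.Agent.S37.Kron.Degree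

open AlgebraicCurve IntermediateField ModularCurve
open Fermat.Agent.S24 Fermat.Agent.S24.BridgeInv Fermat.Agent.S24.PlaceAt
open Fermat.Agent.S37.HeckeInputs

noncomputable section

variable (M ℓ : ℕ) [NeZero M] [NeZero ℓ]

/-- `[F_{Mℓ} : α F_M] · ψ(M) = ψ(Mℓ)` for all `M, ℓ`. -/
theorem psi_mul_finrank_alpha :
    letI := AlgebraicCurve.algebraAlong (heckeAlphaBar Kbar M ℓ)
    dedekindPsi M * Module.finrank (FF M) (FF (M * ℓ)) = dedekindPsi (M * ℓ) := by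
  letI := AlgebraicCurve.algebraAlong (heckeAlphaBar Kbar M ℓ)
  letI alg0 : Algebra ↥Kbar⟮J M⟯ (FF (M * ℓ)) :=
    ((heckeAlphaBar Kbar M ℓ).toRingHom.comp (algebraMap ↥Kbar⟮J M⟯ (FF M))).toAlgebra
  haveI : IsScalarTower ↥Kbar⟮J M⟯ (FF M) (FF (M * ℓ)) :=
    IsScalarTower.of_algebraMap_eq (fun x => rfl)
  have h1 := Module.finrank_mul_finrank ↥Kbar⟮J M⟯ (FF M) (FF (M * ℓ))
  have hmap : (Kbar⟮J M⟯).map (heckeAlphaBar Kbar M ℓ) = Kbar⟮J (M * ℓ)⟯ := by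
    rw [IntermediateField.adjoin_map, Set.image_singleton, heckeAlphaBar_J]
  let e₁ : ↥Kbar⟮J M⟯ ≃+* ↥Kbar⟮J (M * ℓ)⟯ :=
    ((Kbar⟮J M⟯).equivMap (heckeAlphaBar Kbar M ℓ)).toRingEquiv.trans
      (IntermediateField.equivOfEq hmap).toRingEquiv
  have h2 : Module.finrank ↥Kbar⟮J M⟯ (FF (M * ℓ)) =
      Module.finrank ↥Kbar⟮J (M * ℓ)⟯ (FF (M * ℓ)) :=
    Algebra.finrank_eq_of_equiv_equiv e₁ (RingEquiv.refl _) (by ext x; rfl)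
  rw [h2, FiniteFibres.T0, FiniteFibres.T0] at h1
  exact h1

/-- **`[F_{Mℓ} : α F_M] = ℓ + 1`** for a prime `ℓ ∤ M`. -/
theorem finrank_alpha (hℓ : ℓ.Prime) (hℓM : ¬ ℓ ∣ M) :
    letI := AlgebraicCurve.algebraAlong (heckeAlphaBar Kbar M ℓ)
    Module.finrank (FF M) (FF (M * ℓ)) = ℓ + 1 := by
  have h := psi_mul_finrank_alpha M ℓ
  rw [Fermat.Agent.S20.dedekindPsi_mul_prime_of_not_dvd (NeZero.ne M) hℓ hℓM, mul_comm] at h
  have hpos : 0 < dedekindPsi M := by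
    rw [← FiniteFibres.T0 M]
    exact Module.finrank_pos
  exact Nat.eq_of_mul_eq_mul_right hpos h

end

end Fermat.Agent.S37.Kron.Degree
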