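import Mathlib
import Fermat.Prelude.Def_ModularCurve_LaurentCoeff
import Fermat.Prelude.Def_ModularCurve_X0

/-!
# S37 (E4'0): the twist automorphism `q ↦ c q` of Laurent series

For a unit `c` of a commutative ring `R`, `twist c` is the ring automorphism of `R((q))` with
`(twist c x).coeff n = c ^ n * x.coeff n`.
-/

set_option autoImplicit false

namespace Fermat.Agent.S37.Kron.Twist

open ModularCurve HahnSeries

noncomputable section

variable {R S : Type*} [CommRing R] [CommRing S]

/-- the underlying function of `twist`. -/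
def twistFun (c : Rˣ) (x : LaurentSeries R) : LaurentSeries R where
  coeff n := ((c ^ n : Rˣ) : R) * x.coeff n
  isPWO_support' := x.isPWO_support.mono fun n hn => by
    simp only [Function.mem_support, ne_eq] at hn ⊢
    intro h
    exact hn (by rw [h, mul_zero])

@[simp]
theorem twistFun_coeff (c : Rˣ) (x : LaurentSeries R) (n : ℤ) :
    (twistFun c x).coeff n = ((c ^ n : Rˣ) : R) * x.coeff n := rfl

theorem mem_support_twistFun (c : Rˣ) (x : LaurentSeries R) (n : ℤ) :
    n ∈ (twistFun c x).support ↔ n ∈ x.support := by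
  simp only [HahnSeries.mem_support, twistFun_coeff, ne_eq]
  exact (Units.mul_right_eq_zero _).not

theorem twistFun_mul (c : Rˣ) (x y : LaurentSeries R) :
    twistFun c (x * y) = twistFun c x * twistFun c y := by
  ext n
  have hset : Finset.antidiagonal (twistFun c x).isPWO_support (twistFun c y).isPWO_support n
      = Finset.antidiagonal x.isPWO_support y.isPWO_support n := by
    ext ij
    simp only [Finset.mem_antidiagonal, mem_support_twistFun]
  rw [twistFun_coeff, HahnSeries.coeff_mul, HahnSeries.coeff_mul, hset, Finset.mul_sum]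
  refine Finset.sum_congr rfl fun ij hij => ?_
  have hn : ij.1 + ij.2 = n := (Finset.mem_antidiagonal.mp hij).2.2
  rw [twistFun_coeff, twistFun_coeff, ← hn, zpow_add, Units.val_mul]
  ring

/-- `twist c` as a ring homomorphism. -/
def twistHom (c : Rˣ) : LaurentSeries R →+* LaurentSeries R where
  toFun := twistFun c
  map_one' := by
    ext n
    rw [twistFun_coeff, HahnSeries.coeff_one]
    split_ifs with h
    · subst h; simp
    · simp
  map_mul' := twistFun_mul c
  map_zero' := by
    ext n
    simp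
  map_add' x y := by
    ext n
    simp [mul_add]

/-- **The twist automorphism** `q ↦ c q` of `R((q))`. -/
def twist (c : Rˣ) : LaurentSeries R ≃+* LaurentSeries R :=
  RingEquiv.ofRingHom (twistHom c) (twistHom c⁻¹)
    (by
      ext x n
      show ((c ^ n : Rˣ) : R) * (((c⁻¹ ^ n : Rˣ) : R) * x.coeff n) = x.coeff n
      rw [← mul_assoc, ← Units.val_mul, inv_zpow, mul_inv_cancel, Units.val_one, one_mul])
    (by
      ext x n
      show ((c⁻¹ ^ n : Rˣ) : R) * (((c ^ n : Rˣ) : R) * x.coeff n) = x.coeff n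
      rw [← mul_assoc, ← Units.val_mul, inv_zpow, inv_mul_cancel, Units.val_one, one_mul])

@[simp]
theorem twist_coeff (c : Rˣ) (x : LaurentSeries R) (n : ℤ) :
    (twist c x).coeff n = ((c ^ n : Rˣ) : R) * x.coeff n := rfl

@[simp]
theorem twist_one_apply (x : LaurentSeries R) : twist (1 : Rˣ) x = x := by
  ext n
  simp

theorem twist_one : twist (1 : Rˣ) = RingEquiv.refl (LaurentSeries R) :=
  RingEquiv.ext twist_one_apply

theorem twist_mul_apply (c d : Rˣ) (x : LaurentSeries R) :
    twist (c * d) x = twist c (twist d x) := by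
  ext n
  rw [twist_coeff, twist_coeff, twist_coeff, mul_zpow, Units.val_mul, mul_assoc]

theorem twist_mul (c d : Rˣ) : twist (c * d) = (twist d).trans (twist c) :=
  RingEquiv.ext (twist_mul_apply c d)

theorem twist_symm (c : Rˣ) : (twist c).symm = twist c⁻¹ := rfl

theorem twist_inv_twist (c : Rˣ) (x : LaurentSeries R) : twist c⁻¹ (twist c x) = x := by
  rw [← twist_mul_apply, inv_mul_cancel, twist_one_apply]

theorem twist_twist_inv (c : Rˣ) (x : LaurentSeries R) : twist c (twist c⁻¹ x) = x := by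
  rw [← twist_mul_apply, mul_inv_cancel, twist_one_apply]

theorem twist_pow_apply (c : Rˣ) (k : ℕ) (x : LaurentSeries R) :
    twist (c ^ k) x = (twist c)^[k] x := by
  induction k with
  | zero => simp
  | succ k ih => rw [pow_succ', twist_mul_apply, ih, Function.iterate_succ_apply']

@[simp]
theorem twist_single (c : Rˣ) (k : ℤ) (r : R) :
    twist c (HahnSeries.single k r) = HahnSeries.single k (((c ^ k : Rˣ) : R) * r) := by
  ext n
  rw [twist_coeff]
  rcases eq_or_ne n k with rfl | hn
  · rw [HahnSeries.coeff_single_same, HahnSeries.coeff_single_same]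
  · rw [HahnSeries.coeff_single_of_ne hn, HahnSeries.coeff_single_of_ne hn, mul_zero]

@[simp]
theorem twist_C (c : Rˣ) (r : R) : twist c (HahnSeries.C r) = HahnSeries.C r := by
  rw [HahnSeries.C_apply, twist_single, zpow_zero, Units.val_one, one_mul]

theorem twist_algebraMap (c : Rˣ) (a : R) :
    twist c (algebraMap R (LaurentSeries R) a) = algebraMap R (LaurentSeries R) a := by
  have h0 : algebraMap R (LaurentSeries R) a = HahnSeries.C a := by
    have h1 : algebraMap R (PowerSeries R) a = PowerSeries.C a := by simp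
    rw [HahnSeries.algebraMap_apply', h1, HahnSeries.ofPowerSeries_C]
  rw [h0, twist_C]

/-- `twist c` as an `R`-algebra automorphism. -/
def twistₐ (c : Rˣ) : LaurentSeries R ≃ₐ[R] LaurentSeries R :=
  AlgEquiv.ofRingEquiv (f := twist c) (twist_algebraMap c)

@[simp]
theorem twistₐ_apply (c : Rˣ) (x : LaurentSeries R) : twistₐ c x = twist c x := rfl

/-- Series in `q ^ ℓ` are fixed by the twist by an `ℓ`-th root of unity. -/
theorem twist_qExpand_of_pow_eq_one {ℓ : ℕ} [NeZero ℓ] {c : Rˣ} (h : c ^ ℓ = 1)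
    (x : LaurentSeries R) : twist c (qExpand R ℓ x) = qExpand R ℓ x := by
  ext n
  rw [twist_coeff]
  by_cases hn : (ℓ : ℤ) ∣ n
  · obtain ⟨m, rfl⟩ := hn
    rw [zpow_mul, zpow_natCast, h, one_zpow, Units.val_one, one_mul]
  · rw [qExpand_coeff_of_not_dvd ℓ x hn, mul_zero]

/-- General form: twisting a series in `q ^ ℓ` by `c` is twisting the series by `c ^ ℓ`. -/
theorem twist_qExpand (ℓ : ℕ) [NeZero ℓ] (c : Rˣ) (x : LaurentSeries R) :
    twist c (qExpand R ℓ x) = qExpand R ℓ (twist (c ^ ℓ) x) := by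
  ext n
  rw [twist_coeff]
  by_cases hn : (ℓ : ℤ) ∣ n
  · obtain ⟨m, rfl⟩ := hn
    rw [qExpand_coeff_mul, qExpand_coeff_mul, twist_coeff, zpow_mul, zpow_natCast]
  · rw [qExpand_coeff_of_not_dvd ℓ x hn, qExpand_coeff_of_not_dvd ℓ _ hn, mul_zero]

theorem twist_comm (c d : Rˣ) (x : LaurentSeries R) :
    twist c (twist d x) = twist d (twist c x) := by
  rw [← twist_mul_apply, ← twist_mul_apply, mul_comm]

theorem support_twist (c : Rˣ) (x : LaurentSeries R) : (twist c x).support = x.support :=
  Set.ext fun n => mem_support_twistFun c x n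

theorem order_twist (c : Rˣ) (x : LaurentSeries R) : (twist c x).order = x.order := by
  by_cases hx : x = 0
  · rw [hx, map_zero]
  · have hx' : twist c x ≠ 0 := fun h => hx ((twist c).injective (by rw [h, map_zero]))
    rw [HahnSeries.order_of_ne hx', HahnSeries.order_of_ne hx]
    simp only [support_twist]

theorem coeffMap_twist (f : R →+* S) (c : Rˣ) (x : LaurentSeries R) :
    coeffMap f (twist c x) = twist (Units.map (f : R →* S) c) (coeffMap f x) := by
  ext n
  rw [coeffMap_coeff, twist_coeff, twist_coeff, coeffMap_coeff, map_mul, ← map_zpow,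
    Units.coe_map]
  rfl

/-- The twists are separated by any series with a regular coefficient in degree `-1`
(e.g. `j = q⁻¹ + ⋯`). -/
theorem eq_of_twist_eq_twist {c d : Rˣ} {x : LaurentSeries R}
    (hx : IsLeftRegular (x.coeff (-1))) (h : twist c x = twist d x) : c = d := by
  have h1 := congrArg (fun y => y.coeff (-1)) h
  simp only [twist_coeff] at h1
  have h2 : ((c ^ (-1 : ℤ) : Rˣ) : R) = ((d ^ (-1 : ℤ) : Rˣ) : R) := by
    have hx' : IsRightRegular (x.coeff (-1)) := by
      intro a b hab
      exact hx (by simpa [mul_comm] using hab)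
    exact hx' h1
  have h3 : (c ^ (-1 : ℤ) : Rˣ) = d ^ (-1 : ℤ) := Units.ext h2
  simpa using h3

/-- If `f ζ = 1` then the product of the twists of `y` by `1, ζ, …, ζ^(ℓ-1)` maps to
`(f y) ^ ℓ`. -/
theorem coeffMap_prod_twist (f : R →+* S) (ζ : Rˣ) (hζ : f ζ = 1) (ℓ : ℕ)
    (y : LaurentSeries R) :
    coeffMap f (∏ b ∈ Finset.range ℓ, twist (ζ ^ b) y) = (coeffMap f y) ^ ℓ := by
  have h1 : Units.map (f : R →* S) ζ = 1 := Units.ext (by simpa using hζ)
  rw [map_prod]
  have h2 : ∀ b ∈ Finset.range ℓ, coeffMap f (twist (ζ ^ b) y) = coeffMap f y := by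
    intro b _
    rw [coeffMap_twist, map_pow, h1, one_pow, twist_one_apply]
  rw [Finset.prod_congr rfl h2, Finset.prod_const, Finset.card_range]

/-- The residue-field form of `coeffMap_prod_twist`. -/
theorem coeffMap_residue_prod_twist {L : Type*} [Field L] (A : ValuationSubring L) (ζ : Aˣ)
    (hζ : IsLocalRing.residue A ζ = 1) (ℓ : ℕ) (y : LaurentSeries A) :
    coeffMap (IsLocalRing.residue A) (∏ b ∈ Finset.range ℓ, twist (ζ ^ b) y)
      = (coeffMap (IsLocalRing.residue A) y) ^ ℓ :=
  coeffMap_prod_twist _ ζ hζ ℓ y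

/-! ### Frobenius: `z ^ ℓ = ∑ aₙ^ℓ q^(ℓ n)` in characteristic `ℓ` -/

theorem coeffMap_ofPowerSeries (f : R →+* S) (p : PowerSeries R) :
    coeffMap f (HahnSeries.ofPowerSeries ℤ R p)
      = HahnSeries.ofPowerSeries ℤ S (PowerSeries.map f p) := by
  ext n
  rw [coeffMap_coeff, PowerSeries.coeff_coe, PowerSeries.coeff_coe]
  split_ifs with h
  · exact map_zero f
  · rw [PowerSeries.coeff_map]

theorem qExpand_ofPowerSeries (ℓ : ℕ) [NeZero ℓ] (p : PowerSeries R) :
    qExpand R ℓ (HahnSeries.ofPowerSeries ℤ R p)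
      = HahnSeries.ofPowerSeries ℤ R (PowerSeries.expand ℓ (NeZero.ne ℓ) p) := by
  ext n
  by_cases hn : (ℓ : ℤ) ∣ n
  · obtain ⟨m, rfl⟩ := hn
    rw [qExpand_coeff_mul, PowerSeries.coeff_coe, PowerSeries.coeff_coe]
    have hℓ : (0 : ℤ) < ℓ := by exact_mod_cast Nat.pos_of_ne_zero (NeZero.ne ℓ)
    by_cases hm : m < 0
    · rw [if_pos hm, if_pos (mul_neg_of_pos_of_neg hℓ hm)]
    · rw [if_neg hm, if_neg (by nlinarith)]
      have : ((ℓ : ℤ) * m).natAbs = ℓ * m.natAbs := by
        rw [Int.natAbs_mul, Int.natAbs_natCast]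
      rw [this, PowerSeries.coeff_expand_mul]
  · rw [qExpand_coeff_of_not_dvd ℓ _ hn, PowerSeries.coeff_coe]
    split_ifs with h
    · rfl
    · rw [PowerSeries.coeff_expand_of_not_dvd]
      intro hd
      apply hn
      have : (ℓ : ℤ) ∣ (n.natAbs : ℤ) := by exact_mod_cast hd
      exact (Int.dvd_natAbs).mp this

theorem qExpand_coeffMap_frobenius_ofPowerSeries (ℓ : ℕ) [NeZero ℓ] [ExpChar R ℓ]
    (p : PowerSeries R) :
    qExpand R ℓ (coeffMap (frobenius R ℓ) (HahnSeries.ofPowerSeries ℤ R p))
      = (HahnSeries.ofPowerSeries ℤ R p) ^ ℓ := by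
  rw [coeffMap_ofPowerSeries, qExpand_ofPowerSeries, ← PowerSeries.map_expand, ← map_pow]
  congr 1
  exact MvPowerSeries.map_frobenius_expand ℓ (NeZero.ne ℓ)

/-- **Frobenius on Laurent series**: in characteristic `ℓ`, `z ^ ℓ` is obtained by raising the
coefficients to the `ℓ`-th power and substituting `q ↦ q ^ ℓ`. -/
theorem qExpand_coeffMap_frobenius' (ℓ : ℕ) [NeZero ℓ] [ExpChar R ℓ] (z : LaurentSeries R) :
    qExpand R ℓ (coeffMap (frobenius R ℓ) z) = z ^ ℓ := by
  have hz := LaurentSeries.single_order_mul_powerSeriesPart z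
  have hs : qExpand R ℓ (coeffMap (frobenius R ℓ) (HahnSeries.single z.order (1 : R)))
      = (HahnSeries.single z.order (1 : R)) ^ ℓ := by
    rw [coeffMap_single, qExpand_single, HahnSeries.single_pow, map_one, one_pow, nsmul_eq_mul]
  calc qExpand R ℓ (coeffMap (frobenius R ℓ) z)
      = qExpand R ℓ (coeffMap (frobenius R ℓ)
          (HahnSeries.single z.order (1 : R) * HahnSeries.ofPowerSeries ℤ R z.powerSeriesPart)) := by
        rw [hz]
    _ = (HahnSeries.single z.order (1 : R)) ^ ℓ
          * (HahnSeries.ofPowerSeries ℤ R z.powerSeriesPart) ^ ℓ := by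
        rw [map_mul, map_mul, hs, qExpand_coeffMap_frobenius_ofPowerSeries]
    _ = z ^ ℓ := by rw [← mul_pow, hz]

theorem qExpand_coeffMap_frobenius {k : Type*} [Field k] (ℓ : ℕ) [Fact ℓ.Prime] [CharP k ℓ]
    (z : LaurentSeries k) : qExpand k ℓ (coeffMap (frobenius k ℓ) z) = z ^ ℓ :=
  qExpand_coeffMap_frobenius' ℓ z

end

end Fermat.Agent.S37.Kron.Twist
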