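/-
S37 (project E), leaf E4'c: integrality and reduction of the Hecke norm from the product formula
(taken as a hypothesis), and the `ē = 1` computation.
-/
import Mathlib
import Fermat.Prelude.Thm_ModularCurve_coeffMap_qExpand
import Fermat.Prelude.Def_EllipticCurve_FrobeniusTrace
import Fermat.Agent.S37.Kron.Twist

set_option autoImplicit false

noncomputable section

namespace Fermat.Agent.S37.Kron.Reduce

open ModularCurve HahnSeries Fermat.Agent.S37.Kron.Twist

/-! ### Lifting Laurent series with coefficients in a valuation subring -/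

section Lift

variable {L : Type*} [Field L] (A : ValuationSubring L)

/-- A Laurent series over `L` all of whose coefficients lie in `A`, as a series over `A`. -/
def liftCoeff (x : LaurentSeries L) (h : ∀ k, x.coeff k ∈ A) : LaurentSeries A where
  coeff k := ⟨x.coeff k, h k⟩
  isPWO_support' := x.isPWO_support.mono fun k hk => by
    simp only [Function.mem_support, ne_eq] at hk ⊢
    intro h0
    exact hk (Subtype.ext h0)

@[simp]
theorem liftCoeff_coeff (x : LaurentSeries L) (h : ∀ k, x.coeff k ∈ A) (k : ℤ) :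
    ((liftCoeff A x h).coeff k : L) = x.coeff k := rfl

theorem coeffMap_liftCoeff (x : LaurentSeries L) (h : ∀ k, x.coeff k ∈ A) :
    coeffMap A.subtype (liftCoeff A x h) = x := by
  ext k
  rfl

theorem coeffMap_subtype_injective : Function.Injective (coeffMap A.subtype) := by
  intro x y hxy
  ext k
  have := congrArg (fun z => z.coeff k) hxy
  simpa using this

/-- If `n(q^ℓ)` has coefficients in `A` then so has `n`. -/
theorem exists_integral_of_qExpand_eq {ℓ : ℕ} [NeZero ℓ] (n : LaurentSeries L)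
    (P : LaurentSeries A) (h : qExpand L ℓ n = coeffMap A.subtype P) :
    ∃ nA : LaurentSeries A, coeffMap A.subtype nA = n ∧ qExpand A ℓ nA = P := by
  have hcoeff : ∀ k, n.coeff k ∈ A := by
    intro k
    have h1 := congrArg (fun z => z.coeff ((ℓ : ℤ) * k)) h
    simp only [qExpand_coeff_mul, coeffMap_coeff] at h1
    rw [h1]
    exact (P.coeff _).2
  refine ⟨liftCoeff A n hcoeff, coeffMap_liftCoeff A n hcoeff, ?_⟩
  apply coeffMap_subtype_injective A
  rw [coeffMap_qExpand, coeffMap_liftCoeff, h]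

end Lift

/-! ### Roots of unity in a valuation subring over `ℓ` -/

section Residue

variable {L : Type*} [Field L] (A : ValuationSubring L)

/-- The residue field of a valuation subring over `ℓ` has characteristic `ℓ`. -/
theorem charP_residueField {ℓ : ℕ} (hℓ : ℓ.Prime) (hA : A.LiesOverPrime ℓ) :
    CharP (IsLocalRing.ResidueField A) ℓ := by
  rw [CharP.charP_iff_prime_eq_zero hℓ]
  obtain ⟨hmem, hmax⟩ := ValuationSubring.mem_nonunits_iff_exists_mem_maximalIdeal.mp hA
  have h1 : IsLocalRing.residue A ⟨(ℓ : L), hmem⟩ = 0 :=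
    (IsLocalRing.residue_eq_zero_iff _).mpr hmax
  have h2 : (⟨(ℓ : L), hmem⟩ : A) = ((ℓ : ℕ) : A) := Subtype.ext (by simp)
  rw [h2, map_natCast] at h1
  exact h1

/-- An `ℓ`-th root of unity in `A` reduces to `1` when `A` lies over `ℓ`. -/
theorem residue_eq_one_of_pow_eq_one {ℓ : ℕ} (hℓ : ℓ.Prime) (hA : A.LiesOverPrime ℓ)
    (ζ : Aˣ) (hζ : ζ ^ ℓ = 1) : IsLocalRing.residue A (ζ : A) = 1 := by
  have := charP_residueField A hℓ hA
  have : Fact ℓ.Prime := ⟨hℓ⟩
  have h1 : (IsLocalRing.residue A (ζ : A)) ^ ℓ = 1 := by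
    rw [← map_pow, ← Units.val_pow_eq_pow_val, hζ, Units.val_one, map_one]
  have h2 : (IsLocalRing.residue A (ζ : A) - 1) ^ ℓ = 0 := by
    rw [sub_pow_char, h1, one_pow, sub_self]
  exact sub_eq_zero.mp (pow_eq_zero_iff (Nat.Prime.ne_zero hℓ) |>.mp h2)

/-- Roots of unity lie in every valuation subring. -/
theorem mem_of_pow_eq_one {ℓ : ℕ} (hℓ : ℓ ≠ 0) (z : L) (hz : z ^ ℓ = 1) : z ∈ A := by
  have hint : IsIntegral A z := by
    refine ⟨Polynomial.X ^ ℓ - Polynomial.C 1, Polynomial.monic_X_pow_sub_C 1 hℓ, ?_⟩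
    simp [hz]
  obtain ⟨a, ha⟩ := IsIntegrallyClosed.isIntegral_iff.mp hint
  exact ha ▸ a.2

/-- A root of unity of `L`, as a unit of the valuation subring `A`. -/
def unitOfPowEqOne {ℓ : ℕ} (hℓ : ℓ ≠ 0) (ζ : Lˣ) (hζ : ζ ^ ℓ = 1) : Aˣ where
  val := ⟨(ζ : L), mem_of_pow_eq_one A hℓ (ζ : L) (by rw [← Units.val_pow_eq_pow_val, hζ]; rfl)⟩
  inv := ⟨((ζ⁻¹ : Lˣ) : L), mem_of_pow_eq_one A hℓ ((ζ⁻¹ : Lˣ) : L)
    (by rw [← Units.val_pow_eq_pow_val, inv_pow, hζ, inv_one]; rfl)⟩
  val_inv := Subtype.ext (by simp)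
  inv_val := Subtype.ext (by simp)

@[simp]
theorem map_unitOfPowEqOne {ℓ : ℕ} (hℓ : ℓ ≠ 0) (ζ : Lˣ) (hζ : ζ ^ ℓ = 1) :
    Units.map (A.subtype : A →* L) (unitOfPowEqOne A hℓ ζ hζ) = ζ :=
  Units.ext rfl

theorem unitOfPowEqOne_pow {ℓ : ℕ} (hℓ : ℓ ≠ 0) (ζ : Lˣ) (hζ : ζ ^ ℓ = 1) :
    (unitOfPowEqOne A hℓ ζ hζ) ^ ℓ = 1 := by
  apply Units.ext
  apply Subtype.ext
  rw [Units.val_pow_eq_pow_val]
  show ((ζ : L)) ^ ℓ = 1
  rw [← Units.val_pow_eq_pow_val, hζ]
  rfl

end Residue

/-! ### Integrality and reduction of the norm -/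

section Norm

variable {L : Type*} [Field L]

/-- **Integrality and reduction of the norm** from the product formula, with the root of unity
given as a unit of `A`. Also returns the integral form of the product formula. -/
theorem norm_reduction_unit {ℓ : ℕ} [Fact ℓ.Prime] (A : ValuationSubring L)
    (hA : A.LiesOverPrime ℓ) (ζ : Aˣ) (hζ : ζ ^ ℓ = 1) (y : LaurentSeries A)
    (n : LaurentSeries L)
    (hprod : qExpand L ℓ n = qExpand L (ℓ ^ 2) (coeffMap A.subtype y)
      * ∏ b ∈ Finset.range ℓ,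
          twist (Units.map (A.subtype : A →* L) ζ ^ b) (coeffMap A.subtype y)) :
    ∃ nA : LaurentSeries A, coeffMap A.subtype nA = n ∧
      qExpand A ℓ nA = qExpand A (ℓ ^ 2) y * ∏ b ∈ Finset.range ℓ, twist (ζ ^ b) y ∧
      qExpand (IsLocalRing.ResidueField A) ℓ (coeffMap (IsLocalRing.residue A) nA)
        = qExpand (IsLocalRing.ResidueField A) (ℓ ^ 2) (coeffMap (IsLocalRing.residue A) y)
          * (coeffMap (IsLocalRing.residue A) y) ^ ℓ := by
  have hℓ : ℓ.Prime := Fact.out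
  have hP : qExpand L ℓ n = coeffMap A.subtype
      (qExpand A (ℓ ^ 2) y * ∏ b ∈ Finset.range ℓ, twist (ζ ^ b) y) := by
    rw [hprod, map_mul, coeffMap_qExpand, map_prod]
    congr 1
    refine Finset.prod_congr rfl fun b _ => ?_
    rw [coeffMap_twist, map_pow]
  obtain ⟨nA, hnA, hq⟩ := exists_integral_of_qExpand_eq A n _ hP
  refine ⟨nA, hnA, hq, ?_⟩
  rw [← coeffMap_qExpand, hq, map_mul, coeffMap_qExpand,
    coeffMap_residue_prod_twist A ζ (residue_eq_one_of_pow_eq_one A hℓ hA ζ hζ) ℓ y]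

/-- **Integrality and reduction of the norm** from the product formula (root of unity in `L`). -/
theorem norm_reduction {ℓ : ℕ} [Fact ℓ.Prime] (A : ValuationSubring L)
    (hA : A.LiesOverPrime ℓ) (ζ : Lˣ) (hζ : ζ ^ ℓ = 1) (y : LaurentSeries A)
    (n : LaurentSeries L)
    (hprod : qExpand L ℓ n = qExpand L (ℓ ^ 2) (coeffMap A.subtype y)
      * ∏ b ∈ Finset.range ℓ, twist (ζ ^ b) (coeffMap A.subtype y)) :
    ∃ nA : LaurentSeries A, coeffMap A.subtype nA = n ∧
      qExpand (IsLocalRing.ResidueField A) ℓ (coeffMap (IsLocalRing.residue A) nA)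
        = qExpand (IsLocalRing.ResidueField A) (ℓ ^ 2) (coeffMap (IsLocalRing.residue A) y)
          * (coeffMap (IsLocalRing.residue A) y) ^ ℓ := by
  have hℓ : ℓ.Prime := Fact.out
  obtain ⟨nA, h1, -, h3⟩ := norm_reduction_unit A hA (unitOfPowEqOne A hℓ.ne_zero ζ hζ)
    (unitOfPowEqOne_pow A hℓ.ne_zero ζ hζ) y n (by rw [map_unitOfPowEqOne]; exact hprod)
  exact ⟨nA, h1, h3⟩

/-- The statement of the leaf's spec: primitive root of unity given as a unit of `A`. -/
theorem norm_reduction_of_isPrimitiveRoot {ℓ : ℕ} [Fact ℓ.Prime] (A : ValuationSubring L)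
    (hA : A.LiesOverPrime ℓ) (ζ : Aˣ) (hζ : IsPrimitiveRoot ((ζ : A) : L) ℓ)
    (y : LaurentSeries A) (n : LaurentSeries L)
    (hprod : qExpand L ℓ n = qExpand L (ℓ ^ 2) (coeffMap A.subtype y)
      * ∏ b ∈ Finset.range ℓ,
          twist (Units.map (A.subtype : A →* L) ζ ^ b) (coeffMap A.subtype y)) :
    ∃ nA : LaurentSeries A, coeffMap A.subtype nA = n ∧
      qExpand (IsLocalRing.ResidueField A) ℓ (coeffMap (IsLocalRing.residue A) nA)
        = qExpand (IsLocalRing.ResidueField A) (ℓ ^ 2) (coeffMap (IsLocalRing.residue A) y)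
          * (coeffMap (IsLocalRing.residue A) y) ^ ℓ := by
  have hζ' : ζ ^ ℓ = 1 := by
    apply Units.ext
    apply Subtype.ext
    rw [Units.val_pow_eq_pow_val]
    show ((ζ : A) : L) ^ ℓ = 1
    exact hζ.pow_eq_one
  obtain ⟨nA, h1, -, h3⟩ := norm_reduction_unit A hA ζ hζ' y n hprod
  exact ⟨nA, h1, h3⟩

end Norm

/-! ### The `ē = 1` computation -/

section Generic

variable {A k : Type*} [CommRing A] [CommRing k]

/-- Coefficientwise Frobenius lifts reduce to the coefficientwise Frobenius. -/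
theorem coeffMap_res_coeffMap_lift (ℓ : ℕ) [ExpChar k ℓ] (res : A →+* k) (φ : A →+* A)
    (hφ : ∀ a, res (φ a) = (res a) ^ ℓ) (z : LaurentSeries A) :
    coeffMap res (coeffMap φ z) = coeffMap (frobenius k ℓ) (coeffMap res z) := by
  ext m
  simp only [coeffMap_coeff, hφ, frobenius_def]

/-- **The `ē = 1` computation, generic form.** If `n̄(q^ℓ) = (Fr ȳ)(q^(ℓ²)) · (Fr ȳ)^ℓ` then
`n̄ = Fr² ȳ · ȳ^ℓ`. -/
theorem reduction_quotient_generic (ℓ : ℕ) [NeZero ℓ] [ExpChar k ℓ] (res : A →+* k)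
    (φ : A →+* A) (hφ : ∀ a, res (φ a) = (res a) ^ ℓ) (y nA : LaurentSeries A)
    (hn : qExpand k ℓ (coeffMap res nA)
      = qExpand k (ℓ ^ 2) (coeffMap res (coeffMap φ y)) * (coeffMap res (coeffMap φ y)) ^ ℓ) :
    coeffMap res nA = coeffMap res (coeffMap φ (coeffMap φ y) * y ^ ℓ) := by
  apply qExpand_injective (R := k) ℓ
  rw [hn, map_mul, map_mul, map_pow, map_pow,
    coeffMap_res_coeffMap_lift ℓ res φ hφ (coeffMap φ y),
    qExpand_coeffMap_frobenius' ℓ (coeffMap res (coeffMap φ y)),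
    qExpand_congr (show ℓ ^ 2 = ℓ * ℓ from sq ℓ), ← qExpand_qExpand,
    coeffMap_res_coeffMap_lift ℓ res φ hφ y, qExpand_coeffMap_frobenius' ℓ (coeffMap res y),
    mul_comm, map_pow]

end Generic

section Frobenius

variable {K L : Type*} [Field K] [Field L] [Algebra K L]

/-- The ring endomorphism of `A` induced by an element of its decomposition group. -/
def conjHom (A : ValuationSubring L) (σ : A.decompositionSubgroup K) : A →+* A :=
  MulSemiringAction.toRingHom (A.decompositionSubgroup K) A σ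

@[simp]
theorem coe_conjHom (A : ValuationSubring L) (σ : A.decompositionSubgroup K) (a : A) :
    ((conjHom A σ a : A) : L) = (σ : L ≃ₐ[K] L) (a : L) := rfl

/-- Coefficientwise conjugation of an `A`-integral series is the coefficientwise conjugate. -/
theorem coeffMap_subtype_conjHom (A : ValuationSubring L) (σ : A.decompositionSubgroup K)
    (y : LaurentSeries A) :
    coeffMap A.subtype (coeffMap (conjHom A σ) y)
      = coeffMap (((σ : L ≃ₐ[K] L) : L →+* L)) (coeffMap A.subtype y) := by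
  ext m
  rfl

/-- A Frobenius element at `A` acts on the residue field as `x ↦ x ^ ℓ`. -/
theorem residue_conjHom_of_isFrobeniusAt {ℓ : ℕ} (A : ValuationSubring L) {Φ : L ≃ₐ[K] L}
    (hΦ : A.IsFrobeniusAt Φ ℓ) (a : A) :
    IsLocalRing.residue A (conjHom A ⟨Φ, hΦ.mem_decompositionSubgroup⟩ a)
      = (IsLocalRing.residue A a) ^ ℓ := by
  rw [← hΦ.smul_residue_eq]
  rfl

/-- **The `ē = 1` computation.** Let `Φ` be a Frobenius element at `A ∣ ℓ`, `y` an `A`-integral
series, `y' := Φ y` (coefficientwise) and `n` a series satisfying the product formula for `y'`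
(`n = N_α(β y')`). Then `n` is `A`-integral and `n ≡ Φ² y · y ^ ℓ` modulo the maximal ideal of `A`:
the quotient `e = Φ² y · y ^ ℓ / N_α(β Φ y)` reduces to `1`. -/
theorem reduction_quotient {ℓ : ℕ} [Fact ℓ.Prime] (A : ValuationSubring L)
    (hA : A.LiesOverPrime ℓ) {Φ : L ≃ₐ[K] L} (hΦ : A.IsFrobeniusAt Φ ℓ) (ζ : Lˣ)
    (hζ : ζ ^ ℓ = 1) (y : LaurentSeries A) (n : LaurentSeries L)
    (hprod : qExpand L ℓ n
      = qExpand L (ℓ ^ 2) (coeffMap (Φ : L →+* L) (coeffMap A.subtype y))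
        * ∏ b ∈ Finset.range ℓ, twist (ζ ^ b) (coeffMap (Φ : L →+* L) (coeffMap A.subtype y))) :
    ∃ nA : LaurentSeries A, coeffMap A.subtype nA = n ∧
      coeffMap (IsLocalRing.residue A) nA
        = coeffMap (IsLocalRing.residue A)
            (coeffMap (conjHom A ⟨Φ, hΦ.mem_decompositionSubgroup⟩)
              (coeffMap (conjHom A ⟨Φ, hΦ.mem_decompositionSubgroup⟩) y) * y ^ ℓ) := by
  have hℓ : ℓ.Prime := Fact.out
  have := charP_residueField A hℓ hA
  set φ := conjHom A (⟨Φ, hΦ.mem_decompositionSubgroup⟩ : A.decompositionSubgroup K) with hφ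
  have hy' : coeffMap A.subtype (coeffMap φ y)
      = coeffMap (Φ : L →+* L) (coeffMap A.subtype y) := coeffMap_subtype_conjHom A _ y
  obtain ⟨nA, h1, h2⟩ := norm_reduction A hA ζ hζ (coeffMap φ y) n (by rw [hy']; exact hprod)
  refine ⟨nA, h1, ?_⟩
  exact reduction_quotient_generic ℓ (IsLocalRing.residue A) φ
    (residue_conjHom_of_isFrobeniusAt A hΦ) y nA h2

end Frobenius

end Fermat.Agent.S37.Kron.Reduce
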