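/-
S37 (project E), leaf E4'd: Gauss units are stable under the Hecke norm `z ↦ N_α(β z)` and their
reductions satisfy the Kronecker congruence `res (Nm z) = Fr (res z) · (Fr⁻¹ (res z))^ℓ`
(fields `isU_Nm`, `res_Nm` of `Key/Abstract.Interface`).  The product formula
`(Nm z)(q^ℓ) = z(q^(ℓ²)) · ∏_{b<ℓ} z(ζ^b q)` (leaf E4'a) is a hypothesis.

Route: if `z = P / Q` with `P`, `Q` integral of nonzero reduction, then
`Π_P := P(q^(ℓ²)) · ∏_b P(ζ^b q)` is integral and fixed by `q ↦ ζ q`, hence a series in `q^ℓ`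
(`qContract`), likewise `Π_Q`; so `Nm z = N_P / N_Q` with `N_P(q^ℓ) = Π_P`, whose reduction is
`P̄(q^(ℓ²)) · P̄^ℓ ≠ 0` because `ζ ≡ 1`.
-/
import Mathlib
import Fermat.Prelude.Thm_ModularCurve_coeffMap_qExpand
import Fermat.Agent.S37.Kron.Twist
import Fermat.Agent.S37.Kron.Reduce
import Fermat.Agent.S18.Gauss.Basic

set_option autoImplicit false

noncomputable section

namespace Fermat.Agent.S37.Kron.GaussNorm

open ModularCurve HahnSeries Fermat.Agent.S37.Kron.Twist Fermat.Agent.S37.Kron.Reduce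
open Fermat.Agent.S18.Gauss.Basic

/-! ### Contraction `q^ℓ ↦ q` -/

section Contract

variable {R : Type*} [CommRing R]

theorem bddBelow_support_contract (ℓ : ℕ) [NeZero ℓ] (x : LaurentSeries R) :
    BddBelow (Function.support fun k : ℤ => x.coeff ((ℓ : ℤ) * k)) := by
  refine ⟨min x.order 0, fun k hk => ?_⟩
  by_contra hlt
  rw [not_le] at hlt
  apply hk
  have h1 : k < x.order := lt_of_lt_of_le hlt (min_le_left _ _)
  have h2 : k < 0 := lt_of_lt_of_le hlt (min_le_right _ _)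
  apply HahnSeries.coeff_eq_zero_of_lt_order
  have hℓ : (1 : ℤ) ≤ ℓ := by exact_mod_cast Nat.pos_of_ne_zero (NeZero.ne ℓ)
  have : (ℓ : ℤ) * k ≤ k := by nlinarith
  omega

/-- The series `∑ a_{ℓ k} q^k` (the inverse of `qExpand ℓ` on series in `q^ℓ`). -/
def qContract (ℓ : ℕ) [NeZero ℓ] (x : LaurentSeries R) : LaurentSeries R :=
  HahnSeries.ofSuppBddBelow (fun k => x.coeff ((ℓ : ℤ) * k)) (bddBelow_support_contract ℓ x)

@[simp]
theorem qContract_coeff (ℓ : ℕ) [NeZero ℓ] (x : LaurentSeries R) (k : ℤ) :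
    (qContract ℓ x).coeff k = x.coeff ((ℓ : ℤ) * k) := rfl

/-- A series supported on multiples of `ℓ` is a series in `q^ℓ`. -/
theorem qExpand_qContract (ℓ : ℕ) [NeZero ℓ] (x : LaurentSeries R)
    (h : ∀ n : ℤ, ¬ (ℓ : ℤ) ∣ n → x.coeff n = 0) : qExpand R ℓ (qContract ℓ x) = x := by
  ext n
  by_cases hn : (ℓ : ℤ) ∣ n
  · obtain ⟨m, rfl⟩ := hn
    rw [qExpand_coeff_mul, qContract_coeff]
  · rw [qExpand_coeff_of_not_dvd ℓ _ hn, h n hn]

/-- A series over a domain fixed by the twist by a primitive `ℓ`-th root of unity is a series in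
`q^ℓ`. -/
theorem qExpand_qContract_of_twist_eq [IsDomain R] (ℓ : ℕ) [NeZero ℓ] (ζ : Rˣ)
    (hζ : IsPrimitiveRoot ζ ℓ) (x : LaurentSeries R) (hx : twist ζ x = x) :
    qExpand R ℓ (qContract ℓ x) = x := by
  refine qExpand_qContract ℓ x fun n hn => ?_
  have h1 := congrArg (fun y => y.coeff n) hx
  simp only [twist_coeff] at h1
  have h2 : (((ζ ^ n : Rˣ) : R) - 1) * x.coeff n = 0 := by
    rw [sub_mul, one_mul, h1, sub_self]
  rcases mul_eq_zero.mp h2 with h3 | h3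
  · exfalso
    apply hn
    rw [← hζ.zpow_eq_one_iff_dvd]
    apply Units.ext
    rw [Units.val_one]
    exact sub_eq_zero.mp h3
  · exact h3

end Contract

/-! ### The norm-shaped product -/

section Orbit

variable {R S : Type*} [CommRing R] [CommRing S]

/-- The norm-shaped product `P(q^(ℓ²)) · ∏_{b<ℓ} P(ζ^b q)`. -/
def orbitProd (ℓ : ℕ) [NeZero ℓ] (ζ : Rˣ) (P : LaurentSeries R) : LaurentSeries R :=
  qExpand R (ℓ ^ 2) P * ∏ b ∈ Finset.range ℓ, twist (ζ ^ b) P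

theorem orbitProd_mul (ℓ : ℕ) [NeZero ℓ] (ζ : Rˣ) (P Q : LaurentSeries R) :
    orbitProd ℓ ζ (P * Q) = orbitProd ℓ ζ P * orbitProd ℓ ζ Q := by
  simp only [orbitProd, map_mul, Finset.prod_mul_distrib]
  ring

/-- The twists by the powers of an `ℓ`-th root of unity are permuted by the twist. -/
theorem twist_prod_twist (ℓ : ℕ) (ζ : Rˣ) (hζ : ζ ^ ℓ = 1) (P : LaurentSeries R) :
    twist ζ (∏ b ∈ Finset.range ℓ, twist (ζ ^ b) P) = ∏ b ∈ Finset.range ℓ, twist (ζ ^ b) P := by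
  rw [map_prod]
  have h1 : ∀ b ∈ Finset.range ℓ, twist ζ (twist (ζ ^ b) P) = twist (ζ ^ (b + 1)) P := by
    intro b _
    rw [← twist_mul_apply, pow_succ']
  rw [Finset.prod_congr rfl h1]
  rcases Nat.eq_zero_or_pos ℓ with h0 | hpos
  · subst h0; simp
  · obtain ⟨m, rfl⟩ := Nat.exists_eq_succ_of_ne_zero hpos.ne'
    rw [Finset.prod_range_succ (fun b => twist (ζ ^ (b + 1)) P) m, hζ, twist_one_apply,
      Finset.prod_range_succ' (fun b => twist (ζ ^ b) P) m, pow_zero, twist_one_apply]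

theorem twist_orbitProd (ℓ : ℕ) [NeZero ℓ] (ζ : Rˣ) (hζ : ζ ^ ℓ = 1) (P : LaurentSeries R) :
    twist ζ (orbitProd ℓ ζ P) = orbitProd ℓ ζ P := by
  rw [orbitProd, map_mul, twist_prod_twist ℓ ζ hζ P,
    twist_qExpand_of_pow_eq_one (by rw [pow_two, pow_mul, hζ, one_pow])]

theorem coeffMap_orbitProd (f : R →+* S) (ℓ : ℕ) [NeZero ℓ] (ζ : Rˣ) (P : LaurentSeries R) :
    coeffMap f (orbitProd ℓ ζ P) = orbitProd ℓ (Units.map (f : R →* S) ζ) (coeffMap f P) := by
  rw [orbitProd, orbitProd, map_mul, coeffMap_qExpand, map_prod]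
  congr 1
  refine Finset.prod_congr rfl fun b _ => ?_
  rw [coeffMap_twist, map_pow]

end Orbit

/-! ### Gauss units and the Hecke norm -/

section Main

variable {L : Type*} [Field L] (A : ValuationSubring L)

local notation "k" => IsLocalRing.ResidueField A

/-- **Gauss units are stable under the Hecke norm** (product formula as a hypothesis):
numerator/denominator form. -/
theorem exists_presentation_of_prod {ℓ : ℕ} [Fact ℓ.Prime] (hA : A.LiesOverPrime ℓ) (ζ : Lˣ)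
    (hζ : IsPrimitiveRoot (ζ : L) ℓ) (x n : LaurentSeries L) (P Q : LaurentSeries A)
    (hx : x * incl A Q = incl A P)
    (hprod : qExpand L ℓ n = qExpand L (ℓ ^ 2) x * ∏ b ∈ Finset.range ℓ, twist (ζ ^ b) x) :
    ∃ NP NQ : LaurentSeries A, n * incl A NQ = incl A NP ∧
      qExpand k ℓ (red A NP) = qExpand k (ℓ ^ 2) (red A P) * (red A P) ^ ℓ ∧
      qExpand k ℓ (red A NQ) = qExpand k (ℓ ^ 2) (red A Q) * (red A Q) ^ ℓ := by
  have hℓ : ℓ.Prime := Fact.out
  have hζ1 : ζ ^ ℓ = 1 := by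
    apply Units.ext
    rw [Units.val_pow_eq_pow_val, Units.val_one]
    exact hζ.pow_eq_one
  set ζA := unitOfPowEqOne A hℓ.ne_zero ζ hζ1 with hζA
  have hmap : Units.map (A.subtype : A →* L) ζA = ζ := map_unitOfPowEqOne A hℓ.ne_zero ζ hζ1
  have hζA1 : ζA ^ ℓ = 1 := unitOfPowEqOne_pow A hℓ.ne_zero ζ hζ1
  have hprim : IsPrimitiveRoot ζA ℓ := by
    have hinj : Function.Injective (Units.map (A.subtype : A →* L)) :=
      Units.map_injective (Subtype.val_injective)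
    rw [← IsPrimitiveRoot.map_iff_of_injective hinj, hmap]
    exact IsPrimitiveRoot.coe_units_iff.mp hζ
  have hres : IsLocalRing.residue A (ζA : A) = 1 :=
    residue_eq_one_of_pow_eq_one A hℓ hA ζA hζA1
  have hinclP : ∀ P : LaurentSeries A, incl A (orbitProd ℓ ζA P) = orbitProd ℓ ζ (incl A P) := by
    intro P
    rw [incl, coeffMap_orbitProd, hmap]
  have hredP : ∀ P : LaurentSeries A,
      qExpand k ℓ (red A (qContract ℓ (orbitProd ℓ ζA P)))
        = qExpand k (ℓ ^ 2) (red A P) * (red A P) ^ ℓ := by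
    intro P
    rw [red, ← coeffMap_qExpand,
      qExpand_qContract_of_twist_eq ℓ ζA hprim _ (twist_orbitProd ℓ ζA hζA1 P), orbitProd,
      map_mul, coeffMap_qExpand, coeffMap_residue_prod_twist A ζA hres ℓ P]
  refine ⟨qContract ℓ (orbitProd ℓ ζA P), qContract ℓ (orbitProd ℓ ζA Q), ?_, hredP P, hredP Q⟩
  apply qExpand_injective (R := L) ℓ
  have hc : ∀ P : LaurentSeries A, qExpand L ℓ (incl A (qContract ℓ (orbitProd ℓ ζA P)))
      = orbitProd ℓ ζ (incl A P) := by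
    intro P
    rw [incl, ← coeffMap_qExpand,
      qExpand_qContract_of_twist_eq ℓ ζA hprim _ (twist_orbitProd ℓ ζA hζA1 P)]
    exact hinclP P
  rw [map_mul, hc, hc, hprod, ← hx, orbitProd_mul]
  rfl

/-- **`isU_Nm` + `res_Nm`, Gauss ring form**: if `x` is a unit of the Gauss ring and `n` satisfies
the product formula for `x`, then `n` is a unit of the Gauss ring and
`(res n)(q^ℓ) = (res x)(q^(ℓ²)) · (res x)^ℓ`. -/
theorem gaussRing_of_prod {ℓ : ℕ} [Fact ℓ.Prime] (hA : A.LiesOverPrime ℓ) (ζ : Lˣ)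
    (hζ : IsPrimitiveRoot (ζ : L) ℓ) (x n : LaurentSeries L) (hx : x ∈ gaussRing A)
    (hxu : res A ⟨x, hx⟩ ≠ 0)
    (hprod : qExpand L ℓ n = qExpand L (ℓ ^ 2) x * ∏ b ∈ Finset.range ℓ, twist (ζ ^ b) x) :
    ∃ hn : n ∈ gaussRing A, res A ⟨n, hn⟩ ≠ 0 ∧
      qExpand k ℓ (res A ⟨n, hn⟩)
        = qExpand k (ℓ ^ 2) (res A ⟨x, hx⟩) * (res A ⟨x, hx⟩) ^ ℓ := by
  obtain ⟨P, Q, hQ, h⟩ := hx
  have hrx : res A ⟨x, ⟨P, Q, hQ, h⟩⟩ = red A P / red A Q := res_eq A _ hQ h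
  rw [hrx] at hxu ⊢
  have hP : red A P ≠ 0 := fun h0 => hxu (by rw [h0, zero_div])
  obtain ⟨NP, NQ, hn, hNP, hNQ⟩ := exists_presentation_of_prod A hA ζ hζ x n P Q h hprod
  have hne : ∀ P : LaurentSeries A, red A P ≠ 0 →
      qExpand k (ℓ ^ 2) (red A P) * (red A P) ^ ℓ ≠ 0 := by
    intro P hP
    refine mul_ne_zero ?_ (pow_ne_zero _ hP)
    rw [Ne, map_eq_zero_iff _ (qExpand_injective (R := k) (ℓ ^ 2))]
    exact hP
  have hNQ0 : red A NQ ≠ 0 := by
    intro h0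
    rw [h0, map_zero] at hNQ
    exact hne Q hQ hNQ.symm
  have hNP0 : red A NP ≠ 0 := by
    intro h0
    rw [h0, map_zero] at hNP
    exact hne P hP hNP.symm
  have hmem : n ∈ gaussRing A := ⟨NP, NQ, hNQ0, hn⟩
  have hrn : res A ⟨n, hmem⟩ = red A NP / red A NQ := res_eq A _ hNQ0 hn
  refine ⟨hmem, ?_, ?_⟩
  · rw [hrn]
    exact div_ne_zero hNP0 hNQ0
  · rw [hrn, map_div₀, hNP, hNQ, map_div₀, div_pow, mul_div_mul_comm]

end Main

/-! ### The Frobenius form -/

section Frob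

variable {κ : Type*} [CommRing κ]

/-- `coeffMap` of a ring isomorphism. -/
def coeffMapEquiv {κ' : Type*} [CommRing κ'] (e : κ ≃+* κ') :
    LaurentSeries κ ≃+* LaurentSeries κ' :=
  RingEquiv.ofRingHom (coeffMap (e : κ →+* κ')) (coeffMap (e.symm : κ' →+* κ))
    (by ext x m; simp) (by ext x m; simp)

@[simp]
theorem coeffMapEquiv_apply {κ' : Type*} [CommRing κ'] (e : κ ≃+* κ') (x : LaurentSeries κ) :
    coeffMapEquiv e x = coeffMap (e : κ →+* κ') x := rfl

@[simp]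
theorem coeffMapEquiv_symm_apply {κ' : Type*} [CommRing κ'] (e : κ ≃+* κ')
    (x : LaurentSeries κ') : (coeffMapEquiv e).symm x = coeffMap (e.symm : κ' →+* κ) x := rfl

/-- The coefficientwise Frobenius automorphism of `κ((q))` for a perfect ring `κ`. -/
def coeffFrob (ℓ : ℕ) [ExpChar κ ℓ] [PerfectRing κ ℓ] : LaurentSeries κ ≃+* LaurentSeries κ :=
  coeffMapEquiv (frobeniusEquiv κ ℓ)

theorem coeffFrob_apply (ℓ : ℕ) [ExpChar κ ℓ] [PerfectRing κ ℓ] (x : LaurentSeries κ) :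
    coeffFrob ℓ x = coeffMap (frobenius κ ℓ) x := rfl

/-- `u(q^ℓ) = v(q^(ℓ²)) · v^ℓ` means `u = Fr v · (Fr⁻¹ v)^ℓ`. -/
theorem eq_frob_mul_of_qExpand_eq (ℓ : ℕ) [NeZero ℓ] [ExpChar κ ℓ] [PerfectRing κ ℓ]
    (u v : LaurentSeries κ) (h : qExpand κ ℓ u = qExpand κ (ℓ ^ 2) v * v ^ ℓ) :
    u = coeffFrob ℓ v * ((coeffFrob ℓ).symm v) ^ ℓ := by
  apply qExpand_injective (R := κ) ℓ
  have h1 : qExpand κ ℓ (coeffFrob ℓ v) = v ^ ℓ := qExpand_coeffMap_frobenius' ℓ v
  have h2 : ((coeffFrob ℓ).symm v) ^ ℓ = qExpand κ ℓ v := by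
    rw [← qExpand_coeffMap_frobenius' ℓ ((coeffFrob ℓ).symm v), ← coeffFrob_apply,
      RingEquiv.apply_symm_apply]
  rw [h, map_mul, h1, h2, qExpand_qExpand, qExpand_congr (show ℓ ^ 2 = ℓ * ℓ from sq ℓ),
    mul_comm]

end Frob

/-! ### The function field form (`gaussSubring`, `resMap`) -/

section Field

variable {L : Type*} [Field L] {A : ValuationSubring L} {F : Type*} [Field F]
  {φ : F →+* LaurentSeries L}

local notation "k" => IsLocalRing.ResidueField A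

/-- **`isU_Nm` + `res_Nm` for the Gauss valuation subring of a function field** (`qExpand` form).
`z` is a unit of the Gauss valuation subring, `n` an element whose expansion satisfies the
product formula for `z` (`n = N_α(β z)`). -/
theorem gaussSubring_of_prod {ℓ : ℕ} [Fact ℓ.Prime] (hφ : Scalable A φ)
    (hA : A.LiesOverPrime ℓ) (ζ : Lˣ) (hζ : IsPrimitiveRoot (ζ : L) ℓ) (z n : F)
    (hz : z ∈ gaussSubring hφ) (hzu : resMap hφ ⟨z, hz⟩ ≠ 0)
    (hprod : qExpand L ℓ (φ n)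
      = qExpand L (ℓ ^ 2) (φ z) * ∏ b ∈ Finset.range ℓ, twist (ζ ^ b) (φ z)) :
    ∃ hn : n ∈ gaussSubring hφ, resMap hφ ⟨n, hn⟩ ≠ 0 ∧
      qExpand k ℓ (resMap hφ ⟨n, hn⟩)
        = qExpand k (ℓ ^ 2) (resMap hφ ⟨z, hz⟩) * (resMap hφ ⟨z, hz⟩) ^ ℓ :=
  gaussRing_of_prod A hA ζ hζ (φ z) (φ n) hz hzu hprod

/-- **`res_Nm`, Frobenius form**: over a perfect residue field,
`res (Nm z) = Fr (res z) · (Fr⁻¹ (res z))^ℓ` with `Fr` the coefficientwise Frobenius. -/
theorem resMap_of_prod {ℓ : ℕ} [Fact ℓ.Prime] [ExpChar k ℓ] [PerfectRing k ℓ]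
    (hφ : Scalable A φ) (hA : A.LiesOverPrime ℓ) (ζ : Lˣ) (hζ : IsPrimitiveRoot (ζ : L) ℓ)
    (z n : F) (hz : z ∈ gaussSubring hφ) (hzu : resMap hφ ⟨z, hz⟩ ≠ 0)
    (hprod : qExpand L ℓ (φ n)
      = qExpand L (ℓ ^ 2) (φ z) * ∏ b ∈ Finset.range ℓ, twist (ζ ^ b) (φ z)) :
    ∃ hn : n ∈ gaussSubring hφ, resMap hφ ⟨n, hn⟩ ≠ 0 ∧
      resMap hφ ⟨n, hn⟩ = coeffFrob ℓ (resMap hφ ⟨z, hz⟩)
        * ((coeffFrob ℓ).symm (resMap hφ ⟨z, hz⟩)) ^ ℓ := by
  obtain ⟨hn, h1, h2⟩ := gaussSubring_of_prod hφ hA ζ hζ z n hz hzu hprod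
  exact ⟨hn, h1, eq_frob_mul_of_qExpand_eq ℓ _ _ h2⟩

end Field

/-! ### The residue field is algebraically closed -/

section AlgClosed

variable {L : Type*} [Field L] (A : ValuationSubring L)

/-- The residue field of a valuation subring of an algebraically closed field is algebraically
closed (hence perfect: `coeffFrob` is available for `A ≤ AlgebraicClosure ℚ`). -/
theorem isAlgClosed_residueField [IsAlgClosed L] : IsAlgClosed (IsLocalRing.ResidueField A) := by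
  refine IsAlgClosed.of_exists_root _ fun p hpm hpi => ?_
  have hlift : p ∈ Polynomial.lifts (IsLocalRing.residue A) :=
    Polynomial.mem_lifts_of_surjective IsLocalRing.residue_surjective p
  obtain ⟨p', hp', hdeg, hmon⟩ := Polynomial.lifts_and_natDegree_eq_and_monic hlift hpm
  have hdeg' : (p'.map (algebraMap A L)).degree ≠ 0 := by
    rw [Polynomial.degree_map_eq_of_injective (FaithfulSMul.algebraMap_injective A L),
      Polynomial.degree_eq_natDegree hmon.ne_zero, hdeg]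
    have := Polynomial.natDegree_pos_iff_degree_pos.mpr (Polynomial.degree_pos_of_irreducible hpi)
    exact_mod_cast this.ne'
  obtain ⟨z, hz⟩ := IsAlgClosed.exists_root (p'.map (algebraMap A L)) hdeg'
  have hint : IsIntegral A z := ⟨p', hmon, by rwa [Polynomial.IsRoot, Polynomial.eval_map] at hz⟩
  obtain ⟨a, rfl⟩ := IsIntegrallyClosed.isIntegral_iff.mp hint
  refine ⟨IsLocalRing.residue A a, ?_⟩
  rw [← hp', Polynomial.eval_map, Polynomial.eval₂_hom]
  have h0 : Polynomial.eval a p' = 0 := by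
    rw [Polynomial.IsRoot, Polynomial.eval_map, Polynomial.eval₂_hom] at hz
    apply FaithfulSMul.algebraMap_injective A L
    rw [map_zero]
    exact hz
  rw [h0, map_zero]

end AlgClosed

end Fermat.Agent.S37.Kron.GaussNorm
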