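/-
S37 (project E): the fields `isU_Nm`, `res_Nm` of `Key/Abstract.Interface` at modular level: the
Hecke norm `z ↦ N_α(β z)` of `F_M` (over `AlgebraicClosure ℚ`) preserves the units of the Gauss
valuation subring at `A ∣ ℓ`, and `res (Nm z) = Fr (res z) · (Fr⁻¹ (res z))^ℓ`.
Inputs: `Kron/NormProduct.qExpand_norm_alpha_beta` (product formula) and `Kron/GaussNorm`.
`Scalable A φ` (S18 Gauss/Modular) is a hypothesis.
-/
import Mathlib
import Fermat.Agent.S37.Kron.NormProduct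
import Fermat.Agent.S37.Kron.GaussNorm

set_option autoImplicit false

noncomputable section

namespace Fermat.Agent.S37.Kron.GaussNormModular

open ModularCurve
open Fermat.Agent.S24.BridgeInv (Kbar FF)
open Fermat.Agent.S37.Kron Fermat.Agent.S37.Kron.GaussNorm Fermat.Agent.S18.Gauss.Basic

/-- The Hecke norm `z ↦ N_α(β z)` on `F_M`. -/
def heckeNorm (M ℓ : ℕ) [NeZero M] [NeZero ℓ] (z : FF M) : FF M :=
  letI := AlgebraicCurve.algebraAlong (heckeAlphaBar Kbar M ℓ)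
  Algebra.norm (FF M) (heckeBetaBar Kbar M ℓ z)

theorem heckeNorm_def (M ℓ : ℕ) [NeZero M] [NeZero ℓ] (z : FF M) :
    heckeNorm M ℓ z =
      (letI := AlgebraicCurve.algebraAlong (heckeAlphaBar Kbar M ℓ)
       Algebra.norm (FF M) (heckeBetaBar Kbar M ℓ z)) := rfl

theorem heckeNorm_mul (M ℓ : ℕ) [NeZero M] [NeZero ℓ] (z z' : FF M) :
    heckeNorm M ℓ (z * z') = heckeNorm M ℓ z * heckeNorm M ℓ z' := by
  simp only [heckeNorm, map_mul]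

theorem heckeNorm_one (M ℓ : ℕ) [NeZero M] [NeZero ℓ] : heckeNorm M ℓ (1 : FF M) = 1 := by
  simp only [heckeNorm, map_one]

variable (M ℓ : ℕ) [NeZero M] [NeZero ℓ] (A : ValuationSubring Kbar)

local notation "k" => IsLocalRing.ResidueField A

/-- **`isU_Nm` + `res_Nm`** (`qExpand` form) for any ring homomorphism `φ` restricting to the
inclusion `F_M ⊆ Kbar((q))`. -/
theorem heckeNorm_gaussUnit (hℓ : ℓ.Prime) (hℓM : ¬ ℓ ∣ M) (hA : A.LiesOverPrime ℓ)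
    {φ : FF M →+* LaurentSeries Kbar} (hφv : ∀ x : FF M, φ x = (x : LaurentSeries Kbar))
    (hφ : Scalable A φ) (z : FF M) (hz : z ∈ gaussSubring hφ) (hzu : resMap hφ ⟨z, hz⟩ ≠ 0) :
    ∃ hn : heckeNorm M ℓ z ∈ gaussSubring hφ, resMap hφ ⟨heckeNorm M ℓ z, hn⟩ ≠ 0 ∧
      qExpand k ℓ (resMap hφ ⟨heckeNorm M ℓ z, hn⟩)
        = qExpand k (ℓ ^ 2) (resMap hφ ⟨z, hz⟩) * (resMap hφ ⟨z, hz⟩) ^ ℓ := by
  have : Fact ℓ.Prime := ⟨hℓ⟩
  have hne : NeZero ((ℓ : ℕ) : Kbar) := ⟨by exact_mod_cast hℓ.ne_zero⟩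
  obtain ⟨ζ0, hζ0⟩ := HasEnoughRootsOfUnity.exists_primitiveRoot Kbar ℓ
  have hunit : IsUnit ζ0 := hζ0.isUnit hℓ.ne_zero
  obtain ⟨ζ, rfl⟩ := hunit
  refine gaussSubring_of_prod hφ hA ζ hζ0 z (heckeNorm M ℓ z) hz hzu ?_
  rw [hφv, hφv]
  exact NormProduct.qExpand_norm_alpha_beta M ℓ hℓ hℓM ζ hζ0 z

/-- **`res_Nm`, Frobenius form**: `res (Nm z) = Fr (res z) · (Fr⁻¹ (res z))^ℓ`, `Fr` the
coefficientwise Frobenius of `k((q))` (`k` is algebraically closed of characteristic `ℓ`). -/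
theorem resMap_heckeNorm (hℓ : ℓ.Prime) (hℓM : ¬ ℓ ∣ M) (hA : A.LiesOverPrime ℓ)
    {φ : FF M →+* LaurentSeries Kbar} (hφv : ∀ x : FF M, φ x = (x : LaurentSeries Kbar))
    (hφ : Scalable A φ) (z : FF M) (hz : z ∈ gaussSubring hφ) (hzu : resMap hφ ⟨z, hz⟩ ≠ 0) :
    haveI := isAlgClosed_residueField A
    haveI := Reduce.charP_residueField A hℓ hA
    haveI : Fact ℓ.Prime := ⟨hℓ⟩
    ∃ hn : heckeNorm M ℓ z ∈ gaussSubring hφ, resMap hφ ⟨heckeNorm M ℓ z, hn⟩ ≠ 0 ∧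
      resMap hφ ⟨heckeNorm M ℓ z, hn⟩
        = coeffFrob ℓ (resMap hφ ⟨z, hz⟩) * ((coeffFrob ℓ).symm (resMap hφ ⟨z, hz⟩)) ^ ℓ := by
  have := isAlgClosed_residueField A
  have := Reduce.charP_residueField A hℓ hA
  have : Fact ℓ.Prime := ⟨hℓ⟩
  obtain ⟨hn, h1, h2⟩ := heckeNorm_gaussUnit M ℓ A hℓ hℓM hA hφv hφ z hz hzu
  exact ⟨hn, h1, eq_frob_mul_of_qExpand_eq ℓ _ _ h2⟩

end Fermat.Agent.S37.Kron.GaussNormModular
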