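/-
S37 (project E), leaf (E4'a), part 1: the Atkin-Lehner automorphism `w_ℓ` of the function field
`F_{Mℓ} = ℚ̄(j(q^d) : d ∣ Mℓ)` (`ℓ` prime, `ℓ ∤ M`), constructed through the analytic bridge of S24:
`w` is `f ↦ f(γ(ℓτ))` with `γ = (x y; M ℓ) ∈ Γ₀(M)`, `ℓx - My = 1`.  It fixes the constants,
exchanges `j(q^d)` and `j(q^{dℓ})` (`d ∣ M`), hence exchanges the two degeneracy maps
`α, β : F_M → F_{Mℓ}`, and it is an involution.
-/
import Mathlib
import Fermat.Prelude.Def_ModularCurve_HeckeOperator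
import Fermat.Prelude.Thm_ModularCurve_coeffMap_qExpand
import Fermat.Agent.S24.BridgePhi

set_option autoImplicit false
set_option linter.unusedSectionVars false

namespace Fermat.Agent.S37.Kron.AtkinLehner

open UpperHalfPlane CongruenceSubgroup Matrix.SpecialLinearGroup ModularCurve
open Fermat.Agent.S20 Fermat.Agent.S20.Rank Fermat.Agent.S24 Fermat.Agent.S24.PsiLe
open Fermat.Agent.S24.BridgeInv (Kbar FF)
open scoped MatrixGroups Manifold

noncomputable section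

section Analytic


/-! ### composition with `τ ↦ ℓ τ` on `Hol` and `Mer` -/

theorem mdiff_comp_mulH (ℓ : ℕ) [NeZero ℓ] {f : ℍ → ℂ} (hf : MDiff f) :
    MDiff (fun z : ℍ => f (JBridge.mulH ℓ z)) := by
  rw [UpperHalfPlane.mdifferentiable_iff] at hf ⊢
  have hℓ : (0 : ℝ) < ℓ := Nat.cast_pos.mpr (Nat.pos_of_ne_zero (NeZero.ne ℓ))
  have hmaps : Set.MapsTo (fun z : ℂ => (ℓ : ℂ) * z) {z : ℂ | 0 < z.im} {z : ℂ | 0 < z.im} := by
    intro z hz
    simpa using mul_pos hℓ hz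
  have hcomp : DifferentiableOn ℂ ((f ∘ ofComplex) ∘ fun z : ℂ => (ℓ : ℂ) * z)
      {z : ℂ | 0 < z.im} :=
    hf.comp (by fun_prop) hmaps
  refine hcomp.congr ?_
  intro z hz
  have hz' : 0 < ((ℓ : ℂ) * z).im := hmaps hz
  simp only [Function.comp]
  congr 1
  apply UpperHalfPlane.ext
  rw [JBridge.coe_mulH, ofComplex_apply_of_im_pos hz, ofComplex_apply_of_im_pos hz']

/-- `f ↦ f(ℓ τ)` on `Hol`. -/
def mulHol (ℓ : ℕ) [NeZero ℓ] : Hol →+* Hol where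
  toFun f := ⟨fun z => (f : ℍ → ℂ) (JBridge.mulH ℓ z), mdiff_comp_mulH ℓ f.2⟩
  map_one' := rfl
  map_mul' _ _ := rfl
  map_zero' := rfl
  map_add' _ _ := rfl

@[simp] theorem mulHol_apply (ℓ : ℕ) [NeZero ℓ] (f : Hol) (z : ℍ) :
    ((mulHol ℓ f : Hol) : ℍ → ℂ) z = (f : ℍ → ℂ) (JBridge.mulH ℓ z) := rfl

theorem mulH_surjective (ℓ : ℕ) [NeZero ℓ] : Function.Surjective (JBridge.mulH ℓ) := by
  intro w
  have hℓ : (0 : ℝ) < ℓ := Nat.cast_pos.mpr (Nat.pos_of_ne_zero (NeZero.ne ℓ))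
  have hℓC : (ℓ : ℂ) ≠ 0 := Nat.cast_ne_zero.mpr (NeZero.ne ℓ)
  refine ⟨⟨(w : ℂ) / ℓ, ?_⟩, ?_⟩
  · have : ((w : ℂ) / (ℓ : ℂ)).im = w.im / ℓ := by
      have h := Complex.div_ofReal_im (w : ℂ) (ℓ : ℝ)
      simp
    rw [this]
    exact div_pos w.im_pos hℓ
  · apply UpperHalfPlane.ext
    rw [JBridge.coe_mulH]
    show (ℓ : ℂ) * ((w : ℂ) / ℓ) = w
    field_simp

theorem mulHol_injective (ℓ : ℕ) [NeZero ℓ] : Function.Injective (mulHol ℓ) := by
  intro f g h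
  refine Hol.ext fun z => ?_
  obtain ⟨z', rfl⟩ := mulH_surjective ℓ z
  exact congrFun (congrArg Subtype.val h) z'

/-- `m ↦ m(ℓ τ)` on `Mer`. -/
def mulMer (ℓ : ℕ) [NeZero ℓ] : Mer →+* Mer :=
  IsFractionRing.lift (g := (algebraMap Hol Mer).comp (mulHol ℓ))
    (algebraMap_Hol_Mer_injective.comp (mulHol_injective ℓ))

theorem mulMer_algebraMap (ℓ : ℕ) [NeZero ℓ] (f : Hol) :
    mulMer ℓ (algebraMap Hol Mer f) = algebraMap Hol Mer (mulHol ℓ f) :=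
  IsFractionRing.lift_algebraMap _ f

/-! ### the Atkin-Lehner matrix -/

theorem exists_bezout {M ℓ : ℕ} (h : Nat.Coprime ℓ M) : ∃ x y : ℤ, (ℓ : ℤ) * x - M * y = 1 := by
  refine ⟨Nat.gcdA ℓ M, -Nat.gcdB ℓ M, ?_⟩
  have := Nat.gcd_eq_gcd_ab ℓ M
  rw [h] at this
  push_cast at this
  linarith

/-- the matrix `(x y; M ℓ) ∈ Γ₀(M)`, `ℓ x - M y = 1`. -/
def gam (M ℓ : ℕ) (x y : ℤ) (hxy : (ℓ : ℤ) * x - M * y = 1) : SL(2, ℤ) :=
  ⟨!![x, y; (M : ℤ), (ℓ : ℤ)], by rw [Matrix.det_fin_two_of]; linarith⟩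

theorem gam_mem (M ℓ : ℕ) (x y : ℤ) (hxy : (ℓ : ℤ) * x - M * y = 1) :
    gam M ℓ x y hxy ∈ Gamma0 M := by
  rw [Gamma0_mem]
  simp [gam]

/-- the Atkin-Lehner operator `f ↦ f(γ (ℓ τ))` on `Mer`. -/
def Wc (M ℓ : ℕ) [NeZero ℓ] (x y : ℤ) (hxy : (ℓ : ℤ) * x - M * y = 1) : Mer →+* Mer :=
  (mulMer ℓ).comp (compMer (gam M ℓ x y hxy))

variable (M ℓ : ℕ) [NeZero M] [NeZero ℓ] (x y : ℤ) (hxy : (ℓ : ℤ) * x - M * y = 1)

theorem Wc_const (c : ℂ) :
    Wc M ℓ x y hxy (algebraMap Hol Mer (algebraMap ℂ Hol c))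
      = algebraMap Hol Mer (algebraMap ℂ Hol c) := by
  rw [Wc, RingHom.comp_apply, compMer_algebraMap, mulMer_algebraMap]
  rfl

theorem compHol_gam_jdHol (d : ℕ) [NeZero d] (hd : d ∣ M) :
    compHol (gam M ℓ x y hxy) (JBridge.jdHol d) = JBridge.jdHol d := by
  refine Hol.ext fun z => ?_
  rw [compHol_apply, JBridge.jdHol_apply_of_eq d _ _ (JConj.coe_mulN d _),
    JBridge.jdHol_apply_of_eq d _ _ (JConj.coe_mulN d z)]
  exact JConj.comp_smul_eq_of_mem_Gamma0_of_dvd jFun_smul hd _ (gam_mem M ℓ x y hxy) z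

theorem mulHol_jdHol (d : ℕ) [NeZero d] :
    mulHol ℓ (JBridge.jdHol d) = JBridge.jdHol (d * ℓ) := by
  refine Hol.ext fun z => ?_
  rw [mulHol_apply, JBridge.jdHol_apply]
  symm
  apply JBridge.jdHol_apply_of_eq
  rw [JBridge.coe_mulH, JBridge.coe_mulH]
  push_cast
  ring

theorem Wc_jdHol (d : ℕ) [NeZero d] (hd : d ∣ M) :
    Wc M ℓ x y hxy (algebraMap Hol Mer (JBridge.jdHol d))
      = algebraMap Hol Mer (JBridge.jdHol (d * ℓ)) := by
  rw [Wc, RingHom.comp_apply, compMer_algebraMap, mulMer_algebraMap,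
    compHol_gam_jdHol M ℓ x y hxy d hd, mulHol_jdHol]

theorem Wc_jdHol_mul (d : ℕ) [NeZero d] (hd : d ∣ M) :
    Wc M ℓ x y hxy (algebraMap Hol Mer (JBridge.jdHol (d * ℓ)))
      = algebraMap Hol Mer (JBridge.jdHol d) := by
  rw [Wc, RingHom.comp_apply, compMer_algebraMap, mulMer_algebraMap]
  refine congrArg (algebraMap Hol Mer) (Hol.ext fun z => ?_)
  obtain ⟨m', hm'⟩ := hd
  have hdet : (ℓ : ℤ) * x * 1 - (d : ℤ) * y * m' = 1 := by
    have : (M : ℤ) = d * m' := by exact_mod_cast hm'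
    rw [this] at hxy
    linarith
  let γ'' : SL(2, ℤ) := ⟨!![(ℓ : ℤ) * x, (d : ℤ) * y; (m' : ℤ), 1], by
    rw [Matrix.det_fin_two_of]; exact hdet⟩
  have hd0 : (0 : ℤ) < d := by exact_mod_cast Nat.pos_of_ne_zero (NeZero.ne d)
  have hℓ0 : (0 : ℤ) < ℓ := by exact_mod_cast Nat.pos_of_ne_zero (NeZero.ne ℓ)
  have key := JConj.mulN_smul_of_decomp (d * ℓ) (gam M ℓ x y hxy) γ'' d 0 ℓ hd0 hℓ0
    (by simp [gam, γ'']; ring) (by simp [gam, γ'']; ring)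
    (by simp [gam, γ'', hm']; ring) (by simp [gam, γ'']) (JBridge.mulH ℓ z)
  rw [mulHol_apply, compHol_apply,
    JBridge.jdHol_apply_of_eq (d * ℓ) _ _ (JConj.coe_mulN (d * ℓ) _), key, jFun_smul,
    JBridge.jdHol_apply]
  congr 1
  apply UpperHalfPlane.ext
  rw [coe_affH, JBridge.coe_mulH, JBridge.coe_mulH]
  have hℓC : (ℓ : ℂ) ≠ 0 := Nat.cast_ne_zero.mpr (NeZero.ne ℓ)
  push_cast
  field_simp
  ring


end Analytic

section Generation


/-- A subfield of `FF N` containing the constants and the generators `j(q^d)` is everything. -/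
theorem mem_subfield_of_gen (N : ℕ) [NeZero N] (S : Subfield (FF N))
    (hK : ∀ a : Kbar, algebraMap Kbar (FF N) a ∈ S)
    (hJ : ∀ (d : ℕ) (_ : NeZero d) (hd : d ∣ N), JBridge.Jd N d hd ∈ S) (f : FF N) : f ∈ S := by
  have key : ∀ x (_ : x ∈ IntermediateField.adjoin Kbar (Set.range (JBridge.genF N)))
      (h : x ∈ modularFunctionFieldBar N), (⟨x, h⟩ : FF N) ∈ S := by
    intro x hx
    induction hx using IntermediateField.adjoin_induction with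
    | mem y hy =>
      intro h
      obtain ⟨d, rfl⟩ := hy
      exact hJ d.1 inferInstance d.2
    | algebraMap a =>
      intro h
      exact hK a
    | add y z _ _ hy hz =>
      intro h
      have hy' : y ∈ modularFunctionFieldBar N := by
        rw [JBridge.modularFunctionFieldBar_eq]; assumption
      have hz' : z ∈ modularFunctionFieldBar N := by
        rw [JBridge.modularFunctionFieldBar_eq]; assumption
      have e : (⟨y + z, h⟩ : FF N) = ⟨y, hy'⟩ + ⟨z, hz'⟩ := Subtype.ext rfl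
      rw [e]
      exact S.add_mem (hy hy') (hz hz')
    | inv y _ hy =>
      intro h
      have hy' : y ∈ modularFunctionFieldBar N := by
        rw [JBridge.modularFunctionFieldBar_eq]; assumption
      have e : (⟨y⁻¹, h⟩ : FF N) = (⟨y, hy'⟩ : FF N)⁻¹ := by
        apply Subtype.ext
        rw [IntermediateField.coe_inv]
      rw [e]
      exact S.inv_mem (hy hy')
    | mul y z _ _ hy hz =>
      intro h
      have hy' : y ∈ modularFunctionFieldBar N := by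
        rw [JBridge.modularFunctionFieldBar_eq]; assumption
      have hz' : z ∈ modularFunctionFieldBar N := by
        rw [JBridge.modularFunctionFieldBar_eq]; assumption
      have e : (⟨y * z, h⟩ : FF N) = ⟨y, hy'⟩ * ⟨z, hz'⟩ := Subtype.ext rfl
      rw [e]
      exact S.mul_mem (hy hy') (hz hz')
  have hf : (f : LaurentSeries Kbar) ∈ IntermediateField.adjoin Kbar (Set.range (JBridge.genF N)) := by
    rw [← JBridge.modularFunctionFieldBar_eq]; exact f.2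
  exact key f.1 hf f.2


end Generation

section Descent


variable (M ℓ : ℕ) [NeZero M] [NeZero ℓ] (x y : ℤ) (hxy : (ℓ : ℤ) * x - M * y = 1)

/-- divisors of `M ℓ` (`ℓ` prime): `d` or `d ℓ` with `d ∣ M`. -/
theorem dvd_cases (hℓ : ℓ.Prime) {d : ℕ} (hd : d ∣ M * ℓ) :
    d ∣ M ∨ ∃ d', d' ∣ M ∧ d = d' * ℓ := by
  by_cases h : ℓ ∣ d
  · obtain ⟨d', rfl⟩ := h
    right
    refine ⟨d', ?_, mul_comm _ _⟩
    rw [mul_comm ℓ d'] at hd
    exact Nat.dvd_of_mul_dvd_mul_right hℓ.pos hd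
  · left
    have hcop : Nat.Coprime d ℓ := (Nat.Coprime.symm ((Nat.Prime.coprime_iff_not_dvd hℓ).mpr h))
    exact hcop.dvd_of_dvd_mul_right hd

theorem Wc_Phi_mem (hℓ : ℓ.Prime) (f : FF (M * ℓ)) :
    Wc M ℓ x y hxy (BridgePhi.PhiBar (M * ℓ) f) ∈ (BridgePhi.PhiBar (M * ℓ)).fieldRange := by
  set Φ := BridgePhi.PhiBar (M * ℓ) with hΦ
  let S : Subfield (FF (M * ℓ)) := Φ.fieldRange.comap ((Wc M ℓ x y hxy).comp Φ)
  suffices h : f ∈ S from h
  refine mem_subfield_of_gen (M * ℓ) S (fun a => ?_) (fun d hne hd => ?_) f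
  · show Wc M ℓ x y hxy (Φ (algebraMap Kbar (FF (M * ℓ)) a)) ∈ Φ.fieldRange
    rw [hΦ, BridgePhi.PhiBar, JBridge.Phi_algebraMap, Wc_const,
      ← JBridge.Phi_algebraMap (M * ℓ) JBridge.iota a]
    exact ⟨_, rfl⟩
  · show Wc M ℓ x y hxy (Φ (JBridge.Jd (M * ℓ) d hd)) ∈ Φ.fieldRange
    rw [hΦ, BridgePhi.PhiBar, JBridge.Phi_Jd]
    rcases dvd_cases M ℓ hℓ hd with h | ⟨d', hd', rfl⟩
    · rw [Wc_jdHol M ℓ x y hxy d h]
      have hd2 : d * ℓ ∣ M * ℓ := Nat.mul_dvd_mul_right h ℓ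
      rw [← JBridge.Phi_Jd (M * ℓ) JBridge.iota (d * ℓ) hd2]
      exact ⟨_, rfl⟩
    · have : NeZero d' := ⟨fun h0 => by simp [h0] at hne⟩
      rw [Wc_jdHol_mul M ℓ x y hxy d' hd']
      have hd2 : d' ∣ M * ℓ := Dvd.dvd.mul_right hd' ℓ
      rw [← JBridge.Phi_Jd (M * ℓ) JBridge.iota d' hd2]
      exact ⟨_, rfl⟩

/-- **The Atkin-Lehner endomorphism `w_ℓ` of `F_{Mℓ}`**, defined through the analytic bridge. -/
def wHom (hℓ : ℓ.Prime) : FF (M * ℓ) →+* FF (M * ℓ) :=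
  ((BridgePhi.PhiBar (M * ℓ)).rangeRestrictFieldEquiv.symm : _ →+* FF (M * ℓ)).comp
    (((Wc M ℓ x y hxy).comp (BridgePhi.PhiBar (M * ℓ))).codRestrict
      (BridgePhi.PhiBar (M * ℓ)).fieldRange (Wc_Phi_mem M ℓ x y hxy hℓ))

theorem Phi_wHom (hℓ : ℓ.Prime) (f : FF (M * ℓ)) :
    BridgePhi.PhiBar (M * ℓ) (wHom M ℓ x y hxy hℓ f)
      = Wc M ℓ x y hxy (BridgePhi.PhiBar (M * ℓ) f) := by
  unfold wHom
  rw [RingHom.comp_apply, RingHom.coe_coe, RingHom.rangeRestrictFieldEquiv_apply_symm_apply]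
  rfl

theorem wHom_algebraMap (hℓ : ℓ.Prime) (a : Kbar) :
    wHom M ℓ x y hxy hℓ (algebraMap Kbar (FF (M * ℓ)) a) = algebraMap Kbar (FF (M * ℓ)) a := by
  apply BridgePhi.PhiBar_injective (M * ℓ)
  rw [Phi_wHom, BridgePhi.PhiBar, JBridge.Phi_algebraMap, Wc_const]

theorem wHom_Jd (hℓ : ℓ.Prime) (d : ℕ) [NeZero d] (hd : d ∣ M) :
    wHom M ℓ x y hxy hℓ (JBridge.Jd (M * ℓ) d (Dvd.dvd.mul_right hd ℓ))
      = JBridge.Jd (M * ℓ) (d * ℓ) (Nat.mul_dvd_mul_right hd ℓ) := by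
  apply BridgePhi.PhiBar_injective (M * ℓ)
  rw [Phi_wHom, BridgePhi.PhiBar, JBridge.Phi_Jd, JBridge.Phi_Jd, Wc_jdHol M ℓ x y hxy d hd]

theorem wHom_Jd_mul (hℓ : ℓ.Prime) (d : ℕ) [NeZero d] (hd : d ∣ M) :
    wHom M ℓ x y hxy hℓ (JBridge.Jd (M * ℓ) (d * ℓ) (Nat.mul_dvd_mul_right hd ℓ))
      = JBridge.Jd (M * ℓ) d (Dvd.dvd.mul_right hd ℓ) := by
  apply BridgePhi.PhiBar_injective (M * ℓ)
  rw [Phi_wHom, BridgePhi.PhiBar, JBridge.Phi_Jd, JBridge.Phi_Jd, Wc_jdHol_mul M ℓ x y hxy d hd]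

/-- `w ∘ α = β`. -/
theorem wHom_alpha (hℓ : ℓ.Prime) (g : FF M) :
    wHom M ℓ x y hxy hℓ (heckeAlphaBar Kbar M ℓ g) = heckeBetaBar Kbar M ℓ g := by
  have h : (wHom M ℓ x y hxy hℓ).comp (heckeAlphaBar Kbar M ℓ).toRingHom
      = (heckeBetaBar Kbar M ℓ).toRingHom := by
    refine BridgeInv.ringHom_ext_FF M _ _ (fun a => ?_) (fun d hne hd => ?_)
    · simp only [RingHom.comp_apply, AlgHom.toRingHom_eq_coe, RingHom.coe_coe, AlgHom.commutes]
      exact wHom_algebraMap M ℓ x y hxy hℓ a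
    · have := hne
      have e1 : heckeAlphaBar Kbar M ℓ (BridgeInv.Jd M d hd)
          = JBridge.Jd (M * ℓ) d (Dvd.dvd.mul_right hd ℓ) := Subtype.ext rfl
      have e2 : heckeBetaBar Kbar M ℓ (BridgeInv.Jd M d hd)
          = JBridge.Jd (M * ℓ) (d * ℓ) (Nat.mul_dvd_mul_right hd ℓ) := by
        apply Subtype.ext
        show qExpand Kbar ℓ (coeffEmb Kbar (qExpand ℚ d jq))
          = coeffEmb Kbar (qExpand ℚ (d * ℓ) jq)
        rw [coeffEmb, ← coeffMap_qExpand, qExpand_qExpand]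
        congr 1
        exact qExpand_congr (mul_comm ℓ d) _
      simp only [RingHom.comp_apply, AlgHom.toRingHom_eq_coe, RingHom.coe_coe]
      rw [e1, e2]
      exact wHom_Jd M ℓ x y hxy hℓ d hd
  exact congrArg (fun φ : FF M →+* FF (M * ℓ) => φ g) h

/-- `w ∘ β = α`. -/
theorem wHom_beta (hℓ : ℓ.Prime) (g : FF M) :
    wHom M ℓ x y hxy hℓ (heckeBetaBar Kbar M ℓ g) = heckeAlphaBar Kbar M ℓ g := by
  have h : (wHom M ℓ x y hxy hℓ).comp (heckeBetaBar Kbar M ℓ).toRingHom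
      = (heckeAlphaBar Kbar M ℓ).toRingHom := by
    refine BridgeInv.ringHom_ext_FF M _ _ (fun a => ?_) (fun d hne hd => ?_)
    · simp only [RingHom.comp_apply, AlgHom.toRingHom_eq_coe, RingHom.coe_coe, AlgHom.commutes]
      exact wHom_algebraMap M ℓ x y hxy hℓ a
    · have := hne
      have e1 : heckeAlphaBar Kbar M ℓ (BridgeInv.Jd M d hd)
          = JBridge.Jd (M * ℓ) d (Dvd.dvd.mul_right hd ℓ) := Subtype.ext rfl
      have e2 : heckeBetaBar Kbar M ℓ (BridgeInv.Jd M d hd)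
          = JBridge.Jd (M * ℓ) (d * ℓ) (Nat.mul_dvd_mul_right hd ℓ) := by
        apply Subtype.ext
        show qExpand Kbar ℓ (coeffEmb Kbar (qExpand ℚ d jq))
          = coeffEmb Kbar (qExpand ℚ (d * ℓ) jq)
        rw [coeffEmb, ← coeffMap_qExpand, qExpand_qExpand]
        congr 1
        exact qExpand_congr (mul_comm ℓ d) _
      simp only [RingHom.comp_apply, AlgHom.toRingHom_eq_coe, RingHom.coe_coe]
      rw [e1, e2]
      exact wHom_Jd_mul M ℓ x y hxy hℓ d hd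
  exact congrArg (fun φ : FF M →+* FF (M * ℓ) => φ g) h

/-- `w` is an involution. -/
theorem wHom_wHom (hℓ : ℓ.Prime) (f : FF (M * ℓ)) :
    wHom M ℓ x y hxy hℓ (wHom M ℓ x y hxy hℓ f) = f := by
  have h : (wHom M ℓ x y hxy hℓ).comp (wHom M ℓ x y hxy hℓ) = RingHom.id _ := by
    refine BridgeInv.ringHom_ext_FF (M * ℓ) _ _ (fun a => ?_) (fun d hne hd => ?_)
    · simp only [RingHom.comp_apply, RingHom.id_apply]
      rw [wHom_algebraMap, wHom_algebraMap]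
    · have := hne
      simp only [RingHom.comp_apply, RingHom.id_apply]
      rw [BridgePhi.Jd_eq]
      rcases dvd_cases M ℓ hℓ hd with h | ⟨d', hd', rfl⟩
      · rw [wHom_Jd M ℓ x y hxy hℓ d h, wHom_Jd_mul M ℓ x y hxy hℓ d h]
      · have : NeZero d' := ⟨fun h0 => by simp [h0] at hne⟩
        rw [wHom_Jd_mul M ℓ x y hxy hℓ d' hd', wHom_Jd M ℓ x y hxy hℓ d' hd']
  exact congrArg (fun φ : FF (M * ℓ) →+* FF (M * ℓ) => φ f) h

/-- `w` as a ring automorphism. -/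
def wEquiv (hℓ : ℓ.Prime) : FF (M * ℓ) ≃+* FF (M * ℓ) :=
  RingEquiv.ofRingHom (wHom M ℓ x y hxy hℓ) (wHom M ℓ x y hxy hℓ)
    (RingHom.ext fun f => wHom_wHom M ℓ x y hxy hℓ f)
    (RingHom.ext fun f => wHom_wHom M ℓ x y hxy hℓ f)

@[simp] theorem wEquiv_apply (hℓ : ℓ.Prime) (f : FF (M * ℓ)) :
    wEquiv M ℓ x y hxy hℓ f = wHom M ℓ x y hxy hℓ f := rfl


/-- **Existence of the Atkin-Lehner automorphism** exchanging the two degeneracy maps. -/
theorem exists_atkinLehner (hℓ : ℓ.Prime) (hℓM : ¬ ℓ ∣ M) :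
    ∃ w : FF (M * ℓ) ≃+* FF (M * ℓ),
      (∀ a : Kbar, w (algebraMap Kbar (FF (M * ℓ)) a) = algebraMap Kbar (FF (M * ℓ)) a) ∧
      (∀ g : FF M, w (heckeAlphaBar Kbar M ℓ g) = heckeBetaBar Kbar M ℓ g) ∧
      (∀ g : FF M, w (heckeBetaBar Kbar M ℓ g) = heckeAlphaBar Kbar M ℓ g) ∧
      ∀ f : FF (M * ℓ), w (w f) = f := by
  have hcop : Nat.Coprime ℓ M := (Nat.Prime.coprime_iff_not_dvd hℓ).mpr hℓM
  obtain ⟨x, y, hxy⟩ := exists_bezout hcop
  exact ⟨wEquiv M ℓ x y hxy hℓ, wHom_algebraMap M ℓ x y hxy hℓ, wHom_alpha M ℓ x y hxy hℓ,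
    wHom_beta M ℓ x y hxy hℓ, wHom_wHom M ℓ x y hxy hℓ⟩

end Descent

end

end Fermat.Agent.S37.Kron.AtkinLehner
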