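import Mathlib
import Fermat.Prelude.Def_ModularCurve_X0ModL
import Fermat.Prelude.Thm_ModularCurve_coeff_jqModC_pow_of_lt
import Fermat.Prelude.Thm_ModularCurve_coeff_jqModC_pow_self
import Fermat.Prelude.Thm_ModularCurve_coeffMap_qExpand
import Fermat.Agent.S37.Kron.Twist

/-!
# S37 (SC1, series part): polynomials in `j` as Laurent series

For a commutative ring `R`, `jqModC R = q⁻¹ + 744 + ⋯ ∈ R((q))`.  We study the map
`P ↦ P(j) : R[X] → R((q))`: it is injective, its coefficients can be read off from the polar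
part, integrality of the `q`-expansion descends to the polynomial, and it commutes with
coefficient maps.
-/

set_option autoImplicit false

namespace Fermat.Agent.S37.Kron.JPolySeries

open ModularCurve HahnSeries Polynomial

noncomputable section

variable {R S : Type*} [CommRing R] [CommRing S]

/-- `P(j)` as a Laurent series, written as an explicit sum. -/
def evalJ (P : R[X]) : LaurentSeries R :=
  P.sum fun i a => HahnSeries.C a * jqModC R ^ i

theorem evalJ_eq_sum (P : R[X]) :
    evalJ P = ∑ i ∈ Finset.range (P.natDegree + 1), HahnSeries.C (P.coeff i) * jqModC R ^ i := by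
  rw [evalJ, Polynomial.sum_over_range]
  intro i
  rw [map_zero, zero_mul]

theorem evalJ_eq_eval₂ (P : R[X]) :
    evalJ P = P.eval₂ (HahnSeries.C : R →+* LaurentSeries R) (jqModC R) := by
  rw [evalJ, Polynomial.eval₂_eq_sum]

theorem evalJ_add (P Q : R[X]) : evalJ (P + Q) = evalJ P + evalJ Q := by
  simp only [evalJ_eq_eval₂, Polynomial.eval₂_add]

theorem evalJ_mul (P Q : R[X]) : evalJ (P * Q) = evalJ P * evalJ Q := by
  simp only [evalJ_eq_eval₂, Polynomial.eval₂_mul]

theorem evalJ_sub (P Q : R[X]) : evalJ (P - Q) = evalJ P - evalJ Q := by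
  simp only [evalJ_eq_eval₂, Polynomial.eval₂_sub]

theorem evalJ_pow (P : R[X]) (n : ℕ) : evalJ (P ^ n) = evalJ P ^ n := by
  simp only [evalJ_eq_eval₂, Polynomial.eval₂_pow]

@[simp] theorem evalJ_X : evalJ (X : R[X]) = jqModC R := by
  rw [evalJ_eq_eval₂, Polynomial.eval₂_X]

@[simp] theorem evalJ_C (a : R) : evalJ (C a : R[X]) = HahnSeries.C a := by
  rw [evalJ_eq_eval₂, Polynomial.eval₂_C]

/-- the coefficient of `q^(-n)` in `c · j^i`. -/
theorem coeff_C_mul_jq_pow (a : R) (i : ℕ) (m : ℤ) :
    (HahnSeries.C a * jqModC R ^ i).coeff m = a * (jqModC R ^ i).coeff m := by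
  rw [HahnSeries.C_apply, HahnSeries.coeff_single_zero_mul]

/-- **Reading off coefficients**: for `n ≥ deg P`, the coefficient of `q^(-n)` in `P(j)` is the
`n`-th coefficient of `P`. -/
theorem coeff_evalJ_neg (P : R[X]) {n : ℕ} (hn : P.natDegree ≤ n) :
    (evalJ P).coeff (-(n : ℤ)) = P.coeff n := by
  classical
  rw [evalJ_eq_sum, HahnSeries.coeff_sum]
  simp only [coeff_C_mul_jq_pow]
  by_cases hmem : n ∈ Finset.range (P.natDegree + 1)
  · rw [Finset.sum_eq_single_of_mem n hmem]
    · rw [coeff_jqModC_pow_self, mul_one]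
    · intro i hi hin
      have hi' : i < n := by
        have := Finset.mem_range.mp hi
        omega
      rw [coeff_jqModC_pow_of_lt R (by exact_mod_cast Int.neg_lt_neg (by exact_mod_cast hi')),
        mul_zero]
  · have hlt : P.natDegree < n := by
      rw [Finset.mem_range] at hmem
      omega
    rw [Polynomial.coeff_eq_zero_of_natDegree_lt hlt]
    refine Finset.sum_eq_zero fun i hi => ?_
    have hi' : i < n := by
      have := Finset.mem_range.mp hi
      omega
    rw [coeff_jqModC_pow_of_lt R (by exact_mod_cast Int.neg_lt_neg (by exact_mod_cast hi')),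
      mul_zero]

/-- `P ↦ P(j)` is injective. -/
theorem evalJ_injective : Function.Injective (evalJ : R[X] → LaurentSeries R) := by
  intro P Q h
  by_contra hne
  have hd : P - Q ≠ 0 := sub_ne_zero.mpr hne
  have h0 : evalJ (P - Q) = 0 := by rw [evalJ_sub, h, sub_self]
  have := coeff_evalJ_neg (P - Q) le_rfl
  rw [h0, HahnSeries.coeff_zero] at this
  exact hd (Polynomial.leadingCoeff_eq_zero.mp this.symm)

/-- `P ↦ P(j)` commutes with coefficient maps. -/
theorem coeffMap_evalJ (f : R →+* S) (P : R[X]) :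
    coeffMap f (evalJ P) = evalJ (P.map f) := by
  rw [evalJ_eq_eval₂, evalJ_eq_eval₂, Polynomial.hom_eval₂, Polynomial.eval₂_map, coeffMap_jqModC]
  congr 1
  ext a : 1
  simp [HahnSeries.C_apply]

/-! ### descent of integrality from the `q`-expansion to the polynomial -/

/-- the coefficients of `j^n` over any ring are images of integers. -/
theorem coeff_jqModC_pow_mem (A : Subring R) (n : ℕ) (k : ℤ) : (jqModC R ^ n).coeff k ∈ A := by
  have h : jqModC R ^ n = coeffMap (Int.castRingHom R) (jqModC ℤ ^ n) := by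
    rw [map_pow, coeffMap_jqModC]
  rw [h, coeffMap_coeff]
  exact intCast_mem A _

/-- **Integrality descends**: if all coefficients of the series `P(j)` lie in a subring `A`, so do
all coefficients of `P`. -/
theorem coeff_mem_of_evalJ_coeff_mem (A : Subring R) :
    ∀ (n : ℕ) (P : R[X]), P.natDegree ≤ n → (∀ k, (evalJ P).coeff k ∈ A) → ∀ i, P.coeff i ∈ A := by
  intro n
  induction n with
  | zero =>
    intro P hP h i
    have hP0 : P.natDegree ≤ 0 := hP
    have h0 := coeff_evalJ_neg P hP0
    rcases Nat.eq_zero_or_pos i with rfl | hi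
    · rw [← h0]; exact h _
    · rw [Polynomial.coeff_eq_zero_of_natDegree_lt (by omega)]
      exact A.zero_mem
  | succ n ih =>
    intro P hP h i
    have hlead : P.coeff (n + 1) ∈ A := by
      rw [← coeff_evalJ_neg P hP]; exact h _
    set Q : R[X] := P - C (P.coeff (n + 1)) * X ^ (n + 1) with hQ
    have hQdeg : Q.natDegree ≤ n := by
      rw [Polynomial.natDegree_le_iff_coeff_eq_zero]
      intro m hm
      rw [hQ, Polynomial.coeff_sub, Polynomial.coeff_C_mul, Polynomial.coeff_X_pow]
      by_cases hmn : m = n + 1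
      · subst hmn; simp
      · rw [if_neg hmn, mul_zero, sub_zero]
        exact Polynomial.coeff_eq_zero_of_natDegree_lt (by omega)
    have hQmem : ∀ k, (evalJ Q).coeff k ∈ A := by
      intro k
      rw [hQ, evalJ_sub, evalJ_mul, evalJ_C, evalJ_pow, evalJ_X, HahnSeries.coeff_sub,
        coeff_C_mul_jq_pow]
      exact A.sub_mem (h k) (A.mul_mem hlead (coeff_jqModC_pow_mem A _ _))
    have hQi := ih Q hQdeg hQmem i
    have : P.coeff i = Q.coeff i + (C (P.coeff (n + 1)) * X ^ (n + 1)).coeff i := by
      rw [hQ, Polynomial.coeff_sub, sub_add_cancel]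
    rw [this, Polynomial.coeff_C_mul, Polynomial.coeff_X_pow]
    refine A.add_mem hQi (A.mul_mem hlead ?_)
    split_ifs
    · exact A.one_mem
    · exact A.zero_mem

/-- the polynomial descends to the subring. -/
theorem exists_map_subtype_eq (A : Subring R) (P : R[X]) (h : ∀ k, (evalJ P).coeff k ∈ A) :
    ∃ PA : A[X], PA.map A.subtype = P := by
  have hc := coeff_mem_of_evalJ_coeff_mem A P.natDegree P le_rfl h
  have : P ∈ Polynomial.lifts A.subtype := by
    rw [Polynomial.lifts_iff_coeff_lifts]
    intro n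
    exact ⟨⟨P.coeff n, hc n⟩, rfl⟩
  exact this

/-! ### pole order -/

/-- `x` has a pole of order at most `a` at `q = 0`. -/
def PoleLE (a : ℤ) (x : LaurentSeries R) : Prop := ∀ m : ℤ, m < -a → x.coeff m = 0

theorem PoleLE.mul {a b : ℤ} {x y : LaurentSeries R} (hx : PoleLE a x) (hy : PoleLE b y) :
    PoleLE (a + b) (x * y) := by
  intro m hm
  rw [HahnSeries.coeff_mul]
  refine Finset.sum_eq_zero fun ij hij => ?_
  have hsum : ij.1 + ij.2 = m := (Finset.mem_antidiagonal.mp hij).2.2
  by_cases h1 : ij.1 < -a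
  · rw [hx _ h1, zero_mul]
  · have h2 : ij.2 < -b := by omega
    rw [hy _ h2, mul_zero]

theorem poleLE_one : PoleLE 0 (1 : LaurentSeries R) := by
  intro m hm
  rw [HahnSeries.coeff_one, if_neg (by omega)]

theorem PoleLE.prod {ι : Type*} (s : Finset ι) (a : ι → ℤ) (x : ι → LaurentSeries R)
    (h : ∀ i ∈ s, PoleLE (a i) (x i)) : PoleLE (∑ i ∈ s, a i) (∏ i ∈ s, x i) := by
  classical
  induction s using Finset.induction_on with
  | empty => simpa using poleLE_one
  | insert i s hi ih =>
    rw [Finset.sum_insert hi, Finset.prod_insert hi]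
    exact (h i (Finset.mem_insert_self i s)).mul
      (ih fun j hj => h j (Finset.mem_insert_of_mem hj))

theorem PoleLE.qExpand {a : ℤ} {x : LaurentSeries R} (hx : PoleLE a x) (N : ℕ) [NeZero N] :
    PoleLE (N * a) (ModularCurve.qExpand R N x) := by
  intro m hm
  by_cases hd : (N : ℤ) ∣ m
  · obtain ⟨m', rfl⟩ := hd
    rw [qExpand_coeff_mul]
    apply hx
    have hN : (0 : ℤ) < N := by exact_mod_cast Nat.pos_of_ne_zero (NeZero.ne N)
    nlinarith
  · exact qExpand_coeff_of_not_dvd N x hd

theorem poleLE_jqModC_sub_C (c : R) : PoleLE 1 (jqModC R - HahnSeries.C c) := by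
  intro m hm
  rw [HahnSeries.coeff_sub, coeff_jqModC_of_lt R (by omega), HahnSeries.C_apply,
    HahnSeries.coeff_single_of_ne (by omega), sub_zero]

theorem PoleLE.of_eq {a b : ℤ} {x : LaurentSeries R} (hx : PoleLE a x) (h : a = b) :
    PoleLE b x := h ▸ hx

theorem PoleLE.of_qExpand {a : ℤ} {x : LaurentSeries R} (N : ℕ) [NeZero N]
    (hx : PoleLE (N * a) (ModularCurve.qExpand R N x)) : PoleLE a x := by
  intro m hm
  rw [← qExpand_coeff_mul N x m]
  apply hx
  have hN : (0 : ℤ) < N := by exact_mod_cast Nat.pos_of_ne_zero (NeZero.ne N)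
  nlinarith

/-- the degree of `P` is bounded by the pole order of `P(j)`. -/
theorem natDegree_le_of_poleLE (P : R[X]) (a : ℕ) (h : PoleLE a (evalJ P)) : P.natDegree ≤ a := by
  by_contra hlt
  rw [not_le] at hlt
  have hP : P ≠ 0 := by
    rintro rfl
    simp at hlt
  have h1 := coeff_evalJ_neg P le_rfl
  rw [h (-(P.natDegree : ℤ)) (by exact_mod_cast Int.neg_lt_neg (by exact_mod_cast hlt))] at h1
  exact hP (Polynomial.leadingCoeff_eq_zero.mp h1.symm)

theorem coeffMap_injective_of_injective {f : R →+* S} (hf : Function.Injective f) :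
    Function.Injective (coeffMap f) := by
  intro x y h
  ext k
  have := congrArg (fun z => HahnSeries.coeff z k) h
  simp only [coeffMap_coeff] at this
  exact hf this

/-- the polynomial descends along a ring homomorphism whose range contains the coefficients of
`P(j)`. -/
theorem exists_map_eq (f : S →+* R) (P : R[X]) (h : ∀ k, (evalJ P).coeff k ∈ f.range) :
    ∃ PA : S[X], PA.map f = P := by
  have hc := coeff_mem_of_evalJ_coeff_mem f.range P.natDegree P le_rfl h
  have : P ∈ Polynomial.lifts f := by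
    rw [Polynomial.lifts_iff_coeff_lifts]
    intro n
    exact hc n
  exact this

theorem evalJ_X_sub_C (c : R) :
    evalJ (X - Polynomial.C c : R[X]) = jqModC R - HahnSeries.C c := by
  rw [evalJ_sub, evalJ_X, evalJ_C]

/-- in characteristic `ℓ`, `j(q^ℓ) = j(q)^ℓ`. -/
theorem qExpand_jqModC_of_expChar (ℓ : ℕ) [NeZero ℓ] [ExpChar R ℓ] :
    ModularCurve.qExpand R ℓ (jqModC R) = jqModC R ^ ℓ := by
  have h := Fermat.Agent.S37.Kron.Twist.qExpand_coeffMap_frobenius' (R := R) ℓ (jqModC R)
  rwa [coeffMap_jqModC] at h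

end

end Fermat.Agent.S37.Kron.JPolySeries
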