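import Mathlib

set_option autoImplicit false

/-!
# S37 (E4'g): norm and trace as a product / sum over an explicit full family of embeddings

`L / F` a finite extension of fields, `Ω` any field over `F` (NOT assumed algebraically closed),
`τ : ι → (L →ₐ[F] Ω)` an injective family of `F`-embeddings with `card ι = [L : F]`.  Then `L / F` is
separable, the `τ i` are all the `F`-embeddings of `L` into `Ω` (and into an algebraic closure of
`Ω`), and

* `norm_eq_prod_of_embeddings`  : `algebraMap F Ω (Algebra.norm F y) = ∏ i, τ i y`,
* `trace_eq_sum_of_embeddings` : `algebraMap F Ω (Algebra.trace F L y) = ∑ i, τ i y`.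
-/

namespace Fermat.Agent.S37.Kron.NormEmb

open Module

section

variable {F L Ω : Type*} [Field F] [Field L] [Field Ω] [Algebra F L] [Algebra F Ω]
  [FiniteDimensional F L] {ι : Type*} [Fintype ι]

/-- the family `τ` followed by `Ω → AlgebraicClosure Ω` -/
noncomputable def toBar (τ : ι → L →ₐ[F] Ω) (i : ι) : L →ₐ[F] AlgebraicClosure Ω :=
  (IsScalarTower.toAlgHom F Ω (AlgebraicClosure Ω)).comp (τ i)

omit [FiniteDimensional F L] [Fintype ι] in
theorem toBar_apply (τ : ι → L →ₐ[F] Ω) (i : ι) (y : L) :
    toBar τ i y = algebraMap Ω (AlgebraicClosure Ω) (τ i y) := rfl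

omit [FiniteDimensional F L] [Fintype ι] in
theorem toBar_injective (τ : ι → L →ₐ[F] Ω) (hinj : Function.Injective τ) :
    Function.Injective (toBar τ) := by
  intro a b h
  apply hinj
  ext y
  have := congrArg (fun f : L →ₐ[F] AlgebraicClosure Ω => f y) h
  simp only [toBar_apply] at this
  exact (algebraMap Ω (AlgebraicClosure Ω)).injective this

/-- a full family of embeddings exhausts the embeddings into an algebraic closure -/
theorem toBar_bijective (τ : ι → L →ₐ[F] Ω) (hinj : Function.Injective τ)
    (hcard : Fintype.card ι = finrank F L) : Function.Bijective (toBar τ) := by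
  classical
  rw [Fintype.bijective_iff_injective_and_card]
  refine ⟨toBar_injective τ hinj, le_antisymm (Fintype.card_le_of_injective _
    (toBar_injective τ hinj)) ?_⟩
  rw [hcard, ← Nat.card_eq_fintype_card]
  exact card_algHom_le_finrank F L (AlgebraicClosure Ω)

/-- the existence of `[L : F]` distinct embeddings forces separability -/
theorem isSeparable_of_embeddings (τ : ι → L →ₐ[F] Ω) (hinj : Function.Injective τ)
    (hcard : Fintype.card ι = finrank F L) : Algebra.IsSeparable F L := by
  classical
  rw [← Field.finSepDegree_eq_finrank_iff, Field.finSepDegree_eq_of_isAlgClosed F L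
    (AlgebraicClosure Ω), Nat.card_eq_fintype_card, ← hcard]
  exact (Fintype.card_of_bijective (toBar_bijective τ hinj hcard)).symm

/-- **norm = product over a full family of embeddings** -/
theorem norm_eq_prod_of_embeddings (τ : ι → L →ₐ[F] Ω) (hinj : Function.Injective τ)
    (hcard : Fintype.card ι = finrank F L) (y : L) :
    algebraMap F Ω (Algebra.norm F y) = ∏ i, τ i y := by
  classical
  have hsep := isSeparable_of_embeddings τ hinj hcard
  apply (algebraMap Ω (AlgebraicClosure Ω)).injective
  rw [← IsScalarTower.algebraMap_apply, Algebra.norm_eq_prod_embeddings F (AlgebraicClosure Ω) y,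
    map_prod]
  exact (Fintype.prod_bijective (toBar τ) (toBar_bijective τ hinj hcard) _ _
    (fun i => rfl)).symm

/-- **trace = sum over a full family of embeddings** -/
theorem trace_eq_sum_of_embeddings (τ : ι → L →ₐ[F] Ω) (hinj : Function.Injective τ)
    (hcard : Fintype.card ι = finrank F L) (y : L) :
    algebraMap F Ω (Algebra.trace F L y) = ∑ i, τ i y := by
  classical
  have hsep := isSeparable_of_embeddings τ hinj hcard
  apply (algebraMap Ω (AlgebraicClosure Ω)).injective
  rw [← IsScalarTower.algebraMap_apply, trace_eq_sum_embeddings (AlgebraicClosure Ω), map_sum]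
  exact (Fintype.sum_bijective (toBar τ) (toBar_bijective τ hinj hcard) _ _
    (fun i => rfl)).symm

end

end Fermat.Agent.S37.Kron.NormEmb
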