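/-
S37 (project E), leaf (E4'a), part 2: the PRODUCT FORMULA for the Hecke norm

  `(N_α(β g))(q^ℓ) = g(q^(ℓ²)) · ∏_{b < ℓ} g(ζ^b q)`

for `g ∈ F_M`, `ℓ` prime, `ℓ ∤ M`, `ζ` a primitive `ℓ`-th root of unity, where
`α, β : F_M → F_{Mℓ}` are the two degeneracy maps and `N_α` is the norm of `F_{Mℓ}` over `α(F_M)`.
-/
import Mathlib
import Fermat.Agent.S37.Kron.AtkinLehner
import Fermat.Agent.S37.Kron.Twist
import Fermat.Agent.S37.Kron.NormEmb
import Fermat.Agent.S37.Kron.Degree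

set_option autoImplicit false
set_option linter.unusedSectionVars false
set_option linter.style.haveILetI false

namespace Fermat.Agent.S37.Kron.NormProduct

open ModularCurve
open Fermat.Agent.S24
open Fermat.Agent.S24.BridgeInv (Kbar FF)
open Fermat.Agent.S37.Kron

noncomputable section

/-! ### generic: swapping two embeddings by an automorphism -/

/-- If an automorphism `w` of `L` exchanges two embeddings `α, β : F → L`, then
`N_α(β g) = N_β(α g)`. -/
theorem norm_swap {F L : Type*} [Field F] [Field L] (α β : F →+* L) (w : L ≃+* L)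
    (hβ : ∀ g, w (β g) = α g) (hα : ∀ g, w (α g) = β g) (g : F) :
    @Algebra.norm F L _ _ α.toAlgebra (β g) = @Algebra.norm F L _ _ β.toAlgebra (α g) := by
  have h := @Algebra.norm_eq_of_equiv_equiv F L F L _ _ _ _ β.toAlgebra α.toAlgebra
    (RingEquiv.refl F) w (by ext r; exact (hβ r).symm) (α g)
  rw [h, hα]
  rfl

/-- If an automorphism `w` of `L` exchanges two embeddings `α, β : F → L`, then
`[L : α F] = [L : β F]`. -/
theorem finrank_swap {F L : Type*} [Field F] [Field L] (α β : F →+* L) (w : L ≃+* L)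
    (hβ : ∀ g, w (β g) = α g) :
    @Module.finrank F L _ _ β.toAlgebra.toModule = @Module.finrank F L _ _ α.toAlgebra.toModule :=
  @Algebra.finrank_eq_of_equiv_equiv F L _ _ β.toAlgebra F L _ _ α.toAlgebra
    (RingEquiv.refl F) w (by ext r; exact (hβ r).symm)

/-- Ring-hom form of `NormEmb.norm_eq_prod_of_embeddings`: the norm of `L` over `β F`, pushed to
`Ω` along `ιF`, is the product over a full family of embeddings `τ i : L → Ω` extending `ιF`. -/
theorem map_norm_eq_prod {F L Ω : Type*} [Field F] [Field L] [Field Ω] (β : F →+* L)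
    (ιF : F →+* Ω) {ι : Type*} [Fintype ι] (τ : ι → L →+* Ω)
    (hτ : ∀ i r, τ i (β r) = ιF r) (hinj : Function.Injective τ)
    (hfin : @Module.Finite F L _ _ β.toAlgebra.toModule)
    (hcard : Fintype.card ι = @Module.finrank F L _ _ β.toAlgebra.toModule) (y : L) :
    ιF (@Algebra.norm F L _ _ β.toAlgebra y) = ∏ i, τ i y := by
  letI algL : Algebra F L := β.toAlgebra
  letI algΩ : Algebra F Ω := ιF.toAlgebra
  haveI : FiniteDimensional F L := hfin
  let τ' : ι → L →ₐ[F] Ω := fun i => { τ i with commutes' := fun r => hτ i r }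
  have hinj' : Function.Injective τ' := by
    intro i j hij
    apply hinj
    ext z
    exact congrArg (fun φ : L →ₐ[F] Ω => φ z) hij
  exact NormEmb.norm_eq_prod_of_embeddings τ' hinj' hcard y

/-! ### the modular instance -/

variable (M ℓ : ℕ) [NeZero M] [NeZero ℓ]

/-- `g ↦ g(q^ℓ)` as a ring homomorphism `F_M → ℚ̄((q))`. -/
def betaSer : FF M →+* LaurentSeries Kbar :=
  (qExpand Kbar ℓ).comp (modularFunctionFieldBar M).val.toRingHom

@[simp] theorem betaSer_apply (g : FF M) :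
    betaSer M ℓ g = qExpand Kbar ℓ (g : LaurentSeries Kbar) := rfl

/-- the twist embedding `f ↦ f(c q)` of `F_{Mℓ}` into `ℚ̄((q))`. -/
def twistEmb (c : Kbarˣ) : FF (M * ℓ) →+* LaurentSeries Kbar :=
  (Twist.twist c : LaurentSeries Kbar →+* LaurentSeries Kbar).comp
    (modularFunctionFieldBar (M * ℓ)).val.toRingHom

@[simp] theorem twistEmb_apply (c : Kbarˣ) (f : FF (M * ℓ)) :
    twistEmb M ℓ c f = Twist.twist c (f : LaurentSeries Kbar) := rfl

/-- the embedding `f ↦ (w f)(q^ℓ)` of `F_{Mℓ}` into `ℚ̄((q))`. -/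
def inftyEmb (w : FF (M * ℓ) ≃+* FF (M * ℓ)) : FF (M * ℓ) →+* LaurentSeries Kbar :=
  ((qExpand Kbar ℓ).comp (modularFunctionFieldBar (M * ℓ)).val.toRingHom).comp
    (w : FF (M * ℓ) →+* FF (M * ℓ))

@[simp] theorem inftyEmb_apply (w : FF (M * ℓ) ≃+* FF (M * ℓ)) (f : FF (M * ℓ)) :
    inftyEmb M ℓ w f = qExpand Kbar ℓ ((w f : FF (M * ℓ)) : LaurentSeries Kbar) := rfl

/-- the family of `ℓ + 1` embeddings. -/
def embFamily (w : FF (M * ℓ) ≃+* FF (M * ℓ)) (ζ : Kbarˣ) :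
    Option (Fin ℓ) → FF (M * ℓ) →+* LaurentSeries Kbar
  | none => inftyEmb M ℓ w
  | some b => twistEmb M ℓ (ζ ^ (b : ℕ))

theorem coe_J_coeff_neg_one (N : ℕ) [NeZero N] :
    ((JBridge.J N : FF N) : LaurentSeries Kbar).coeff (-1) = 1 := by
  rw [JBridge.coe_J, coeffEmb, coeffMap_coeff, coeff_jq_neg_one, map_one]

theorem embFamily_comp_beta (w : FF (M * ℓ) ≃+* FF (M * ℓ))
    (hwβ : ∀ g : FF M, w (heckeBetaBar Kbar M ℓ g) = heckeAlphaBar Kbar M ℓ g)
    (ζ : Kbarˣ) (hζ : ζ ^ ℓ = 1) (i : Option (Fin ℓ)) (r : FF M) :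
    embFamily M ℓ w ζ i (heckeBetaBar Kbar M ℓ r) = betaSer M ℓ r := by
  cases i with
  | none =>
    show inftyEmb M ℓ w (heckeBetaBar Kbar M ℓ r) = _
    rw [inftyEmb_apply, hwβ, coe_heckeAlphaBar, betaSer_apply]
  | some b =>
    show twistEmb M ℓ (ζ ^ (b : ℕ)) (heckeBetaBar Kbar M ℓ r) = _
    rw [twistEmb_apply, coe_heckeBetaBar, betaSer_apply]
    refine Twist.twist_qExpand_of_pow_eq_one ?_ _
    rw [← pow_mul, mul_comm, pow_mul, hζ, one_pow]

theorem embFamily_injective (hℓ : ℓ.Prime) (w : FF (M * ℓ) ≃+* FF (M * ℓ))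
    (hwα : ∀ g : FF M, w (heckeAlphaBar Kbar M ℓ g) = heckeBetaBar Kbar M ℓ g)
    (ζ : Kbarˣ) (hζ : IsPrimitiveRoot (ζ : Kbar) ℓ) :
    Function.Injective (embFamily M ℓ w ζ) := by
  set x : FF (M * ℓ) := heckeAlphaBar Kbar M ℓ (JBridge.J M) with hx
  have hxc : ((x : FF (M * ℓ)) : LaurentSeries Kbar).coeff (-1) = 1 := by
    rw [hx, coe_heckeAlphaBar]
    exact coe_J_coeff_neg_one M
  have hnone : (embFamily M ℓ w ζ none x).coeff (-1) = 0 := by
    show (inftyEmb M ℓ w x).coeff (-1) = 0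
    rw [inftyEmb_apply, hx, hwα, coe_heckeBetaBar]
    refine qExpand_coeff_of_not_dvd ℓ _ ?_
    intro hdvd
    have h1 : (ℓ : ℤ) ∣ 1 := (dvd_neg (a := (ℓ : ℤ)) (b := 1)).mp hdvd
    have h2 : ℓ ∣ 1 := Int.natCast_dvd_natCast.mp (by simpa using h1)
    exact hℓ.one_lt.ne' (Nat.dvd_one.mp h2)
  have hsome : ∀ b : Fin ℓ, (embFamily M ℓ w ζ (some b) x).coeff (-1) ≠ 0 := by
    intro b
    show (twistEmb M ℓ (ζ ^ (b : ℕ)) x).coeff (-1) ≠ 0
    rw [twistEmb_apply, Twist.twist_coeff, hxc, mul_one]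
    exact Units.ne_zero _
  have hζu : IsPrimitiveRoot ζ ℓ := IsPrimitiveRoot.coe_units_iff.mp hζ
  intro i j hij
  have hijx : embFamily M ℓ w ζ i x = embFamily M ℓ w ζ j x :=
    congrArg (fun φ : FF (M * ℓ) →+* LaurentSeries Kbar => φ x) hij
  cases i with
  | none =>
    cases j with
    | none => rfl
    | some b =>
      exfalso
      apply hsome b
      rw [← hijx]
      exact hnone
  | some a =>
    cases j with
    | none =>
      exfalso
      apply hsome a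
      rw [hijx]
      exact hnone
    | some b =>
      have h1 : Twist.twist (ζ ^ (a : ℕ)) (x : LaurentSeries Kbar)
          = Twist.twist (ζ ^ (b : ℕ)) (x : LaurentSeries Kbar) := hijx
      have hreg : IsLeftRegular ((x : LaurentSeries Kbar).coeff (-1)) := by
        rw [hxc]; exact isRegular_one.left
      have h2 := Twist.eq_of_twist_eq_twist hreg h1
      have h3 := hζu.pow_inj a.2 b.2 h2
      exact congrArg some (Fin.ext h3)

/-- **PRODUCT FORMULA for the Hecke norm** `N_α(β g)`: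
`(N_α(β g))(q^ℓ) = g(q^(ℓ²)) · ∏_{b < ℓ} g(ζ^b q)`. -/
theorem qExpand_norm_alpha_beta (hℓ : ℓ.Prime) (hℓM : ¬ ℓ ∣ M) (ζ : Kbarˣ)
    (hζ : IsPrimitiveRoot (ζ : Kbar) ℓ) (g : FF M) :
    letI := AlgebraicCurve.algebraAlong (heckeAlphaBar Kbar M ℓ)
    qExpand Kbar ℓ ((Algebra.norm (FF M) (heckeBetaBar Kbar M ℓ g) : FF M) : LaurentSeries Kbar)
      = qExpand Kbar (ℓ ^ 2) (g : LaurentSeries Kbar)
        * ∏ b ∈ Finset.range ℓ, Twist.twist (ζ ^ b) (g : LaurentSeries Kbar) := by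
  obtain ⟨w, -, hwα, hwβ, -⟩ := AtkinLehner.exists_atkinLehner M ℓ hℓ hℓM
  set α : FF M →+* FF (M * ℓ) := (heckeAlphaBar Kbar M ℓ).toRingHom with hα
  set β : FF M →+* FF (M * ℓ) := (heckeBetaBar Kbar M ℓ).toRingHom with hβ
  have hswap : @Algebra.norm (FF M) (FF (M * ℓ)) _ _ α.toAlgebra (β g)
      = @Algebra.norm (FF M) (FF (M * ℓ)) _ _ β.toAlgebra (α g) :=
    norm_swap α β w hwβ hwα g
  have hζℓ : ζ ^ ℓ = 1 := by
    apply Units.ext
    rw [Units.val_pow_eq_pow_val, hζ.pow_eq_one, Units.val_one]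
  have hfin : @Module.Finite (FF M) (FF (M * ℓ)) _ _ β.toAlgebra.toModule :=
    Fermat.Agent.S37.HeckeInputs.finiteAlong_beta M ℓ
  have hdeg : @Module.finrank (FF M) (FF (M * ℓ)) _ _ β.toAlgebra.toModule = ℓ + 1 := by
    rw [finrank_swap α β w hwβ]
    exact Degree.finrank_alpha M ℓ hℓ hℓM
  have hcard : Fintype.card (Option (Fin ℓ))
      = @Module.finrank (FF M) (FF (M * ℓ)) _ _ β.toAlgebra.toModule := by
    rw [hdeg, Fintype.card_option, Fintype.card_fin]
  have key := map_norm_eq_prod β (betaSer M ℓ) (embFamily M ℓ w ζ)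
    (embFamily_comp_beta M ℓ w hwβ ζ hζℓ) (embFamily_injective M ℓ hℓ w hwα ζ hζ) hfin hcard (α g)
  show qExpand Kbar ℓ ((@Algebra.norm (FF M) (FF (M * ℓ)) _ _ α.toAlgebra (β g) : FF M) :
      LaurentSeries Kbar) = _
  rw [hswap, ← betaSer_apply, key, Fintype.prod_option]
  have h1 : embFamily M ℓ w ζ none (α g) = qExpand Kbar (ℓ ^ 2) (g : LaurentSeries Kbar) := by
    show inftyEmb M ℓ w (heckeAlphaBar Kbar M ℓ g) = _
    rw [inftyEmb_apply, hwα, coe_heckeBetaBar, qExpand_qExpand]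
    exact qExpand_congr (sq ℓ).symm _
  have h2 : ∀ b : Fin ℓ, embFamily M ℓ w ζ (some b) (α g)
      = Twist.twist (ζ ^ (b : ℕ)) (g : LaurentSeries Kbar) := by
    intro b
    show twistEmb M ℓ (ζ ^ (b : ℕ)) (heckeAlphaBar Kbar M ℓ g) = _
    rw [twistEmb_apply, coe_heckeAlphaBar]
  rw [h1]
  congr 1
  rw [← Fin.prod_univ_eq_prod_range (fun b => Twist.twist (ζ ^ b) (g : LaurentSeries Kbar)) ℓ]
  exact Finset.prod_congr rfl fun b _ => h2 b

end

end Fermat.Agent.S37.Kron.NormProduct
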