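import Mathlib
import Fermat.Agent.S37.Kron.JPolySeries
import Fermat.Agent.S37.Kron.NormProduct
import Fermat.Agent.S37.Kron.Reduce
import Fermat.Agent.S37.HeckeInputs.Main
import Fermat.Agent.S24.InvRat

/-!
# S37 (SC1): the modular equation `N_α(β(J - c)) = P_c(J)` and Kronecker's congruence

For `c ∈ A` (a valuation subring of `ℚ̄` over `ℓ`), the Hecke norm of `J - c` is a polynomial
`P_c(J)` with `P_c ∈ A[X]` of degree `ℓ + 1` with unit leading coefficient and
`P_c ≡ (X^ℓ - c̄)(X - c̄^ℓ)` modulo the maximal ideal.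
-/

set_option autoImplicit false

namespace Fermat.Agent.S37.Kron.ModularEq

open ModularCurve Polynomial IntermediateField AlgebraicCurve
open Fermat.Agent.S24
open Fermat.Agent.S24.BridgeInv (Kbar FF Jd)
open Fermat.Agent.S24.PlaceAt (J)
open Fermat.Agent.S37.Kron Fermat.Agent.S37.Kron.JPolySeries

noncomputable section

/-! ### generic algebra -/

/-- an element of `K(t)` integral over `K[t]` is a polynomial in `t` (`t` transcendental). -/
theorem exists_poly_of_isIntegral {K E : Type*} [Field K] [Field E] [Algebra K E] (t : E)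
    (ht : Transcendental K t) (htop : K⟮t⟯ = ⊤) {x : E}
    (hx : IsIntegral (Algebra.adjoin K {t}) x) : ∃ R : K[X], x = aeval t R := by
  let e := Polynomial.algEquivOfTranscendental K t ht
  have : IsIntegrallyClosed (Algebra.adjoin K {t}) :=
    IsIntegrallyClosed.of_equiv e.toRingEquiv
  have : IsFractionRing (Algebra.adjoin K {t}) E := by
    refine IsFractionRing.of_field _ _ fun z => ?_
    have hz : z ∈ K⟮t⟯ := htop ▸ IntermediateField.mem_top
    obtain ⟨r, hr, s, hs, hrs⟩ := IntermediateField.mem_adjoin_iff_div.mp hz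
    exact ⟨⟨r, hr⟩, ⟨s, hs⟩, hrs⟩
  obtain ⟨y, hy⟩ := (IsIntegrallyClosed.isIntegral_iff (R := Algebra.adjoin K {t}) (K := E)).mp hx
  refine ⟨e.symm y, ?_⟩
  have h1 : y = aeval (⟨t, Algebra.self_mem_adjoin_singleton K t⟩ : Algebra.adjoin K {t})
      (e.symm y) := by
    have := Polynomial.algEquivOfTranscendental_apply K t ht (e.symm y)
    rw [← this]
    exact (e.apply_symm_apply y).symm
  rw [← hy]
  conv_lhs => rw [h1]
  exact (Polynomial.aeval_algHom_apply (Algebra.adjoin K {t}).val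
    ⟨t, Algebra.self_mem_adjoin_singleton K t⟩ (e.symm y)).symm

/-- integrality over a subalgebra of the target that is covered by the image of `R`. -/
theorem isIntegral_of_subalgebra {K R L : Type*} [Field K] [CommRing R] [CommRing L]
    [Nontrivial L] [Algebra K L] [Algebra R L] (S' : Subalgebra K L)
    (h : ∀ s : S', ∃ r : R, algebraMap R L r = s) {x : L} (hx : IsIntegral S' x) :
    IsIntegral R x := by
  obtain ⟨p, hpm, hp0⟩ := hx
  have hlift : p.map (algebraMap S' L) ∈ Polynomial.lifts (algebraMap R L) := by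
    rw [Polynomial.lifts_iff_coeff_lifts]
    intro n
    rw [Polynomial.coeff_map]
    obtain ⟨r, hr⟩ := h (p.coeff n)
    exact ⟨r, hr⟩
  obtain ⟨q, hq, -, hqm⟩ :=
    Polynomial.lifts_and_degree_eq_and_monic hlift (hpm.map (algebraMap S' L))
  refine ⟨q, hqm, ?_⟩
  rw [← Polynomial.eval_map, hq, Polynomial.eval_map]
  exact hp0

/-- the norm to `F = K(t)` of an element integral over `K[t]` is a polynomial in `t`. -/
theorem exists_poly_norm {K F L : Type*} [Field K] [Field F] [Field L] [Algebra K F] [Algebra K L]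
    [Algebra F L] [IsScalarTower K F L] (t : F) (ht : Transcendental K t) (htop : K⟮t⟯ = ⊤)
    (x : L) (hx : IsIntegral (Algebra.adjoin K {algebraMap F L t}) x) :
    ∃ R : K[X], Algebra.norm F x = aeval t R := by
  have hcover : ∀ s : Algebra.adjoin K {algebraMap F L t},
      ∃ r : Algebra.adjoin K {t}, algebraMap (Algebra.adjoin K {t}) L r = s := by
    rintro ⟨s, hs⟩
    rw [Algebra.adjoin_singleton_eq_range_aeval] at hs
    obtain ⟨p, hp⟩ := hs
    refine ⟨⟨aeval t p, ?_⟩, ?_⟩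
    · rw [Algebra.adjoin_singleton_eq_range_aeval]
      exact ⟨p, rfl⟩
    · show algebraMap F L (aeval t p) = s
      rw [← hp]
      exact (Polynomial.aeval_algHom_apply (IsScalarTower.toAlgHom K F L) t p).symm
  have hx' : IsIntegral (Algebra.adjoin K {t}) x := isIntegral_of_subalgebra _ hcover hx
  have hN := Algebra.isIntegral_norm F hx'
  exact exists_poly_of_isIntegral t ht htop hN

/-! ### level one: `F_1 = ℚ̄(J)` and the norm is a polynomial in `J` -/

theorem adjoin_J_one : Kbar⟮J 1⟯ = ⊤ := by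
  rw [← Inv.adjoin_gensFF 1]
  congr 1
  ext x
  constructor
  · rintro rfl
    exact ⟨1, inferInstance, dvd_rfl, rfl⟩
  · rintro ⟨d, hd0, hd, rfl⟩
    have : d = 1 := Nat.dvd_one.mp hd
    subst this
    rfl

/-- the level-one Hecke norm of `J - c` is a polynomial in `J`. -/
theorem exists_poly_norm_one (ℓ : ℕ) [NeZero ℓ] (c : Kbar) :
    letI := algebraAlong (heckeAlphaBar Kbar 1 ℓ)
    ∃ R : Kbar[X], Algebra.norm (FF 1)
      (heckeBetaBar Kbar 1 ℓ (J 1 - algebraMap Kbar (FF 1) c)) = aeval (J 1) R := by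
  letI algL := algebraAlong (heckeAlphaBar Kbar 1 ℓ)
  haveI := isScalarTower_along (heckeAlphaBar Kbar 1 ℓ)
  refine exists_poly_norm (J 1) (FiniteFibres.transcendental_J 1) adjoin_J_one _ ?_
  have hα : algebraMap (FF 1) (FF (1 * ℓ)) (J 1) = J (1 * ℓ) :=
    Fermat.Agent.S37.HeckeInputs.heckeAlphaBar_J 1 ℓ
  rw [hα, map_sub, Fermat.Agent.S37.HeckeInputs.heckeBetaBar_J, AlgHom.commutes]
  have hJℓ : IsIntegral (Algebra.adjoin Kbar {J (1 * ℓ)}) (Jd (1 * ℓ) ℓ (dvd_mul_left ℓ 1)) :=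
    InvRat.isIntegral_Jd (BridgePhi.isBridge_PhiBar (1 * ℓ)) ℓ (dvd_mul_left ℓ 1)
  have hc : IsIntegral (Algebra.adjoin Kbar {J (1 * ℓ)}) (algebraMap Kbar (FF (1 * ℓ)) c) := by
    rw [IsScalarTower.algebraMap_apply Kbar (Algebra.adjoin Kbar {J (1 * ℓ)}) (FF (1 * ℓ))]
    exact isIntegral_algebraMap
  exact hJℓ.sub hc

/-! ### series of `J` and of polynomials in `J` -/

theorem coe_J (M : ℕ) [NeZero M] : ((J M : FF M) : LaurentSeries Kbar) = jqModC Kbar := by
  show coeffEmb Kbar (qExpand ℚ 1 jq) = _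
  rw [qExpand_one_apply, coeffEmb, ← jqModC_rat, coeffMap_jqModC]

theorem coe_J_sub (M : ℕ) [NeZero M] (c : Kbar) :
    ((J M - algebraMap Kbar (FF M) c : FF M) : LaurentSeries Kbar)
      = jqModC Kbar - HahnSeries.C c := by
  show ((J M : FF M) : LaurentSeries Kbar) - algebraMap Kbar (LaurentSeries Kbar) c = _
  rw [coe_J, algebraMap_laurentSeries_eq_single, HahnSeries.C_apply]

theorem coe_aeval_J (M : ℕ) [NeZero M] (R : Kbar[X]) :
    ((aeval (J M) R : FF M) : LaurentSeries Kbar) = evalJ R := by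
  have h := Polynomial.aeval_algHom_apply (modularFunctionFieldBar M).val (J M) R
  have h' : ((aeval (J M) R : FF M) : LaurentSeries Kbar)
      = aeval ((J M : FF M) : LaurentSeries Kbar) R := h.symm
  rw [h', coe_J, evalJ_eq_eval₂, Polynomial.aeval_def]
  congr 1
  ext a : 1
  rw [algebraMap_laurentSeries_eq_single, HahnSeries.C_apply]

variable (M ℓ : ℕ) [NeZero M] [NeZero ℓ]

/-- the product formula at `g = J - c`, in series form. -/
theorem qExpand_norm_J_sub (hℓ : ℓ.Prime) (hℓM : ¬ ℓ ∣ M) (ζ : Kbarˣ)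
    (hζ : IsPrimitiveRoot (ζ : Kbar) ℓ) (c : Kbar) :
    letI := algebraAlong (heckeAlphaBar Kbar M ℓ)
    qExpand Kbar ℓ ((Algebra.norm (FF M)
        (heckeBetaBar Kbar M ℓ (J M - algebraMap Kbar (FF M) c)) : FF M) : LaurentSeries Kbar)
      = qExpand Kbar (ℓ ^ 2) (jqModC Kbar - HahnSeries.C c)
        * ∏ b ∈ Finset.range ℓ, Twist.twist (ζ ^ b) (jqModC Kbar - HahnSeries.C c) := by
  have h := NormProduct.qExpand_norm_alpha_beta M ℓ hℓ hℓM ζ hζ (J M - algebraMap Kbar (FF M) c)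
  rw [coe_J_sub] at h
  exact h

/-- **The modular equation over `ℚ̄`**: `N_α(β(J - c)) = R(J)` for a polynomial `R` not depending
on the level, whose `q`-expansion is given by the product formula. -/
theorem exists_modularPoly_bar (hℓ : ℓ.Prime) (hℓM : ¬ ℓ ∣ M) (c : Kbar) :
    letI := algebraAlong (heckeAlphaBar Kbar M ℓ)
    ∃ R : Kbar[X], Algebra.norm (FF M)
        (heckeBetaBar Kbar M ℓ (J M - algebraMap Kbar (FF M) c)) = aeval (J M) R ∧
      ∀ (ζ : Kbarˣ), IsPrimitiveRoot (ζ : Kbar) ℓ →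
        qExpand Kbar ℓ (evalJ R) = qExpand Kbar (ℓ ^ 2) (jqModC Kbar - HahnSeries.C c)
          * ∏ b ∈ Finset.range ℓ, Twist.twist (ζ ^ b) (jqModC Kbar - HahnSeries.C c) := by
  have hne : NeZero ((ℓ : ℕ) : Kbar) := ⟨by exact_mod_cast hℓ.ne_zero⟩
  obtain ⟨ζ0, hζ0⟩ := HasEnoughRootsOfUnity.exists_primitiveRoot Kbar ℓ
  have hunit : IsUnit ζ0 := hζ0.isUnit hℓ.ne_zero
  obtain ⟨ζ, rfl⟩ := hunit
  obtain ⟨R, hR⟩ := exists_poly_norm_one ℓ c
  have hℓ1 : ¬ ℓ ∣ 1 := fun h => hℓ.one_lt.ne' (Nat.dvd_one.mp h)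
  have key : ∀ (ζ' : Kbarˣ), IsPrimitiveRoot (ζ' : Kbar) ℓ →
      qExpand Kbar ℓ (evalJ R) = qExpand Kbar (ℓ ^ 2) (jqModC Kbar - HahnSeries.C c)
        * ∏ b ∈ Finset.range ℓ, Twist.twist (ζ' ^ b) (jqModC Kbar - HahnSeries.C c) := by
    intro ζ' hζ'
    have h1 := qExpand_norm_J_sub 1 ℓ hℓ hℓ1 ζ' hζ' c
    rw [hR, coe_aeval_J] at h1
    exact h1
  refine ⟨R, ?_, key⟩
  have hM := qExpand_norm_J_sub M ℓ hℓ hℓM ζ hζ0 c
  rw [← key ζ hζ0] at hM
  have := qExpand_injective ℓ hM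
  apply Subtype.ext
  rw [this, coe_aeval_J]

/-! ### integrality and Kronecker's congruence -/

theorem poleLE_twist {R : Type*} [CommRing R] {a : ℤ} {x : LaurentSeries R} (hx : PoleLE a x)
    (c : Rˣ) : PoleLE a (Twist.twist c x) := by
  intro m hm
  rw [Twist.twist_coeff, hx m hm, mul_zero]

/-- pole order of the right-hand side of the product formula at `J - c`. -/
theorem poleLE_prod_J_sub {R : Type*} [CommRing R] (ℓ : ℕ) [NeZero ℓ] (ζ : Rˣ) (c : R) :
    PoleLE ((ℓ : ℤ) * (((ℓ + 1 : ℕ) : ℤ)))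
      (qExpand R (ℓ ^ 2) (jqModC R - HahnSeries.C c)
        * ∏ b ∈ Finset.range ℓ, Twist.twist (ζ ^ b) (jqModC R - HahnSeries.C c)) := by
  have h1 := (poleLE_jqModC_sub_C c).qExpand (ℓ ^ 2)
  have h2 := PoleLE.prod (Finset.range ℓ) (fun _ => (1 : ℤ))
    (fun b => Twist.twist (ζ ^ b) (jqModC R - HahnSeries.C c))
    (fun b _ => poleLE_twist (poleLE_jqModC_sub_C c) _)
  refine (h1.mul h2).of_eq ?_
  simp only [Finset.sum_const, Finset.card_range, nsmul_eq_mul]
  push_cast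
  ring

theorem coeffMap_C {R S : Type*} [CommRing R] [CommRing S] (f : R →+* S) (a : R) :
    coeffMap f (HahnSeries.C a) = HahnSeries.C (f a) := by
  rw [HahnSeries.C_apply, HahnSeries.C_apply, coeffMap_single]

/-- **The modular equation with Kronecker's congruence**: for `c ∈ A`,
`N_α(β(J - c)) = P(J)` with `P ∈ A[X]` of degree `ℓ + 1`, unit leading coefficient, and
`P ≡ (X^ℓ - c̄)(X - c̄^ℓ)` modulo the maximal ideal of `A`. -/
theorem exists_modularPoly (hℓ : ℓ.Prime) (hℓM : ¬ ℓ ∣ M) (A : ValuationSubring Kbar)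
    (hA : A.LiesOverPrime ℓ) (c : A) :
    letI := algebraAlong (heckeAlphaBar Kbar M ℓ)
    ∃ P : A[X], P.natDegree = ℓ + 1 ∧ IsUnit P.leadingCoeff ∧
      Algebra.norm (FF M) (heckeBetaBar Kbar M ℓ (J M - algebraMap Kbar (FF M) (c : Kbar)))
        = aeval (J M) (P.map A.subtype) ∧
      P.map (IsLocalRing.residue A)
        = (X ^ ℓ - C (IsLocalRing.residue A c)) * (X - C (IsLocalRing.residue A c ^ ℓ)) := by
  haveI : Fact ℓ.Prime := ⟨hℓ⟩
  have hne : NeZero ((ℓ : ℕ) : Kbar) := ⟨by exact_mod_cast hℓ.ne_zero⟩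
  obtain ⟨ζ0, hζ0⟩ := HasEnoughRootsOfUnity.exists_primitiveRoot Kbar ℓ
  obtain ⟨ζ, rfl⟩ := hζ0.isUnit hℓ.ne_zero
  have hζℓ : ζ ^ ℓ = 1 := by
    apply Units.ext
    rw [Units.val_pow_eq_pow_val, hζ0.pow_eq_one, Units.val_one]
  obtain ⟨R, hR, hprod⟩ := exists_modularPoly_bar M ℓ hℓ hℓM (c : Kbar)
  have hprod' := hprod ζ hζ0
  set y : LaurentSeries A := evalJ (X - C c : A[X]) with hy
  have hy' : coeffMap A.subtype y = jqModC Kbar - HahnSeries.C (c : Kbar) := by
    rw [hy, coeffMap_evalJ, Polynomial.map_sub, Polynomial.map_X, Polynomial.map_C, evalJ_X_sub_C]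
    rfl
  obtain ⟨nA, hnA, hred⟩ := Reduce.norm_reduction A hA ζ hζℓ y (evalJ R)
    (by rw [hy']; exact hprod')
  -- descent of the polynomial
  obtain ⟨P, hP⟩ := exists_map_eq A.subtype R (fun k => ⟨nA.coeff k, by rw [← hnA]; rfl⟩)
  have hnP : nA = evalJ P := by
    apply coeffMap_injective_of_injective (f := A.subtype) Subtype.val_injective
    rw [hnA, coeffMap_evalJ, hP]
  -- the reduction
  haveI hchar : CharP (IsLocalRing.ResidueField A) ℓ := Reduce.charP_residueField A hℓ hA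
  haveI : ExpChar (IsLocalRing.ResidueField A) ℓ := ExpChar.prime hℓ
  set cb := IsLocalRing.residue A c with hcb
  have hybar : coeffMap (IsLocalRing.residue A) y
      = jqModC (IsLocalRing.ResidueField A) - HahnSeries.C cb := by
    rw [hy, coeffMap_evalJ, Polynomial.map_sub, Polynomial.map_X, Polynomial.map_C, evalJ_X_sub_C]
  have hPbar : P.map (IsLocalRing.residue A) = (X ^ ℓ - C cb) * (X - C (cb ^ ℓ)) := by
    apply evalJ_injective
    apply qExpand_injective ℓ
    rw [← coeffMap_evalJ, ← hnP, hred, hybar, evalJ_mul, map_mul, evalJ_sub, evalJ_pow, evalJ_X,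
      evalJ_C, evalJ_X_sub_C]
    have e1 : qExpand (IsLocalRing.ResidueField A) (ℓ ^ 2)
        (jqModC (IsLocalRing.ResidueField A) - HahnSeries.C cb)
        = qExpand (IsLocalRing.ResidueField A) ℓ
          (jqModC (IsLocalRing.ResidueField A) ^ ℓ - HahnSeries.C cb) := by
      rw [qExpand_congr (pow_two ℓ), ← qExpand_qExpand, map_sub, qExpand_C,
        qExpand_jqModC_of_expChar]
    have e2 : (jqModC (IsLocalRing.ResidueField A) - HahnSeries.C cb) ^ ℓ
        = qExpand (IsLocalRing.ResidueField A) ℓ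
          (jqModC (IsLocalRing.ResidueField A) - HahnSeries.C (cb ^ ℓ)) := by
      rw [← Twist.qExpand_coeffMap_frobenius' ℓ, map_sub, coeffMap_jqModC, coeffMap_C]
      rfl
    rw [e1, e2]
  -- degree
  have hRdeg : R.natDegree ≤ ℓ + 1 := by
    apply natDegree_le_of_poleLE
    apply PoleLE.of_qExpand ℓ
    rw [hprod']
    exact poleLE_prod_J_sub ℓ ζ (c : Kbar)
  have hPdeg : P.natDegree ≤ ℓ + 1 := by
    rw [← Polynomial.natDegree_map_eq_of_injective (f := A.subtype) Subtype.val_injective, hP]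
    exact hRdeg
  have hm1 : (X ^ ℓ - C cb : (IsLocalRing.ResidueField A)[X]).Monic :=
    Polynomial.monic_X_pow_sub_C cb hℓ.ne_zero
  have hm2 : (X - C (cb ^ ℓ) : (IsLocalRing.ResidueField A)[X]).Monic :=
    Polynomial.monic_X_sub_C _
  have hmon : ((X ^ ℓ - C cb) * (X - C (cb ^ ℓ)) : (IsLocalRing.ResidueField A)[X]).Monic :=
    hm1.mul hm2
  have hdegbar : ((X ^ ℓ - C cb) * (X - C (cb ^ ℓ)) : (IsLocalRing.ResidueField A)[X]).natDegree
      = ℓ + 1 := by
    rw [hm1.natDegree_mul hm2, Polynomial.natDegree_X_pow_sub_C, Polynomial.natDegree_X_sub_C]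
  have hcoeff : IsLocalRing.residue A (P.coeff (ℓ + 1)) = 1 := by
    rw [← Polynomial.coeff_map, hPbar, ← hdegbar]
    exact hmon.coeff_natDegree
  have hcne : P.coeff (ℓ + 1) ≠ 0 := by
    intro h0
    rw [h0, map_zero] at hcoeff
    exact zero_ne_one hcoeff
  have hPdeg' : P.natDegree = ℓ + 1 :=
    le_antisymm hPdeg (Polynomial.le_natDegree_of_ne_zero hcne)
  refine ⟨P, hPdeg', ?_, ?_, hPbar⟩
  · rw [Polynomial.leadingCoeff, hPdeg']
    apply (IsLocalRing.residue_ne_zero_iff_isUnit _).mp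
    rw [hcoeff]
    exact one_ne_zero
  · rw [hP]
    exact hR

end

end Fermat.Agent.S37.Kron.ModularEq
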